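/-
S55 / 52-JS-LIMIT, (H2) file (helper64), part B: the abstract LIMIT theorem.

`(Γ, 𝒰)`, `(H, 𝒱)` groups with level structures (helper15's `Profin15.LevelStr`), `φ : H →* Γ` a
homomorphism, `A : Rep k H`, and `J = smooth 𝒰 (Rep.coind φ A)` the smooth coinduced module
(helper79's `CS79.Smooth.smooth`; for `Γ = G_ℚ`, `H = Gal(ℚ̄_q/ℚ_q)`, `A = ℚ̄_qˣ` this is the limit
semilocal module `CS79.Limit.JS S q A`).  The *localisation* of a level `2`-cochain `c` of `J` is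
`(t₁, t₂) ↦ (c (φ t₁, φ t₂)) 1` (restriction along `φ`, then evaluation at `1`).

**Theorem** (`mem_B₂_of_locFun`, `loc₂_injective`): under the level form `LevelH90` of Hilbert 90
for `A` (level `1`-cocycles on the preimages `φ⁻¹ U` of the levels `U` of `Γ` are coboundaries),
a level `2`-cocycle of `J` whose localisation is a level coboundary of `A` is a level coboundary:
`H²(𝒰; J) → H²(𝒱; A)` is injective.
-/
import Fermat.Agent.S55.JSH2_64.ShapiroInfl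
import Fermat.Agent.S55.Profin15.Restriction
import Fermat.Agent.S55.CS79.Smooth
import Fermat.Agent.S55.CS79.CoindInv
import Fermat.Agent.S55.CS79.FinLevel

set_option autoImplicit false

universe u

open CategoryTheory groupCohomology

namespace Fermat.Agent.S55.JSH2_64.Limit

open Fermat.Agent.S55.Profin15 Fermat.Agent.S55.CS79.InvDescent Fermat.Agent.S55.CS79.Smooth
  Fermat.Agent.S55.CS79.CoindInv Fermat.Agent.S55.CS79.FinLevel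

variable {k Γ H : Type u} [CommRing k] [Group Γ] [Group H]
  (𝒰 : LevelStr Γ) (𝒱 : LevelStr H) (φ : H →* Γ) (A : Rep.{u} k H)

/-- the smooth coinduced module -/
noncomputable abbrev J : Rep.{u} k Γ := smooth 𝒰 (Rep.coind φ A)

/-- evaluation at `1`, as a linear map `J → A` -/
noncomputable def ev : J 𝒰 φ A →ₗ[k] A where
  toFun x := (smoothIncl 𝒰 (Rep.coind φ A) x).1 1
  map_add' _ _ := rfl
  map_smul' _ _ := rfl

theorem ev_apply (x : J 𝒰 φ A) : ev 𝒰 φ A x = (smoothIncl 𝒰 (Rep.coind φ A) x).1 1 := rfl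

/-- evaluation at `1` is equivariant along `φ` -/
theorem ev_ρ (τ : H) (x : J 𝒰 φ A) : ev 𝒰 φ A ((J 𝒰 φ A).ρ (φ τ) x) = A.ρ τ (ev 𝒰 φ A x) := by
  rw [ev_apply, smoothIncl_ρ]
  show (smoothIncl 𝒰 (Rep.coind φ A) x).1 (1 * φ τ) = _
  rw [one_mul]
  have := (smoothIncl 𝒰 (Rep.coind φ A) x).2 τ 1
  rw [mul_one] at this
  exact this

/-- the localisation of a `2`-cochain of `J`: restrict along `φ`, evaluate at `1` -/
noncomputable def locFun (c : Γ × Γ → J 𝒰 φ A) : H × H → A :=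
  fun t => ev 𝒰 φ A (c (φ t.1, φ t.2))

theorem locFun_apply (c : Γ × Γ → J 𝒰 φ A) (t : H × H) :
    locFun 𝒰 φ A c t = (smoothIncl 𝒰 (Rep.coind φ A) (c (φ t.1, φ t.2))).1 1 := rfl

/-- **Hilbert 90 in level form** for the pair `(𝒰, 𝒱, φ, A)`: for every level `U` of `Γ`, a
level-constant function `z : H → A` satisfying the cocycle identity on `φ⁻¹ U` is a coboundary on
`φ⁻¹ U`. -/
def LevelH90 : Prop :=
  ∀ U ∈ 𝒰.levels, ∀ z : H → A, 𝒱.IsConst₁ z →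
    (∀ s t : H, φ s ∈ U → φ t ∈ U → z (s * t) = A.ρ s (z t) + z s) →
    ∃ y₀ : A, ∀ s : H, φ s ∈ U → A.ρ s y₀ - y₀ = z s

variable {𝒰 𝒱 φ A}

/-- **(H2), abstract limit form.**  A level `2`-cocycle of the smooth coinduced module whose
localisation is a level coboundary is a level coboundary. -/
theorem mem_B₂_of_locFun (hH90 : LevelH90 𝒰 𝒱 φ A) {c : Γ × Γ → J 𝒰 φ A}
    (hc : c ∈ 𝒰.Z₂ (J 𝒰 φ A)) (hloc : locFun 𝒰 φ A c ∈ 𝒱.B₂ A) : c ∈ 𝒰.B₂ (J 𝒰 φ A) := by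
  obtain ⟨V, hV⟩ := 𝒰.nonempty
  obtain ⟨W, hW, -, hW'⟩ :=
    exists_level_forall_pull₂ (isSmooth_smooth 𝒰 (Rep.coind φ A)) hc.2 hV
  have := 𝒰.normal W hW
  set π : Γ →* Γ ⧸ W := QuotientGroup.mk' W with hπdef
  have hπ : Function.Surjective π := QuotientGroup.mk'_surjective W
  have hker : π.ker = W := QuotientGroup.ker_mk' W
  have hπ1 : ∀ g : Γ, π g = 1 ↔ g ∈ W := fun g => by
    rw [← MonoidHom.mem_ker, hker]
  have hdesc0 := isInvDescent_coind φ π A hπ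
  have hdesc := isInvDescent_smoothLift (𝒰 := 𝒰) hdesc0 hW hker.ge
  obtain ⟨f, hf⟩ := hW' hdesc hπ hker.le
  have hfz : f ∈ cocycles₂ (Rep.coind (π.comp φ) A) := by
    rw [← hdesc.pull₂_mem_cocycles₂_iff hπ, ← hf]
    exact hc.1
  obtain ⟨b, hbconst, hb⟩ := (𝒱.mem_B₂_iff A _).1 hloc
  -- the localisation of `f`
  have hb' : ∀ t₁ t₂ : H, (f ((π.comp φ) t₁, (π.comp φ) t₂)).1 1 =
      A.ρ t₁ (b t₂) - b (t₁ * t₂) + b t₁ := by
    intro t₁ t₂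
    have h1 := congrFun hb (t₁, t₂)
    rw [d₁₂_hom_apply, locFun_apply, hf, pull₂_apply, smoothIncl_smoothLift, coindInfl_apply,
      map_one] at h1
    exact h1.symm
  set a₀ : A := (f (1, 1)).1 1 with ha₀
  have ha₀fix : ∀ s : H, φ s ∈ W → A.ρ s a₀ = a₀ := by
    intro s hs
    have h1 := (f (1, 1)).2 s 1
    have h2 : (π.comp φ) s = 1 := (hπ1 _).2 hs
    rw [h2, mul_one] at h1
    exact h1.symm
  -- Hilbert 90 for `s ↦ b s - a₀` on `φ⁻¹ W`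
  obtain ⟨y₀, hy₀⟩ := hH90 W hW (fun s => b s - a₀)
    (by
      obtain ⟨U, hU, h⟩ := hbconst
      exact ⟨U, hU, fun g s hs => by show b (g * s) - a₀ = b g - a₀; rw [h g s hs]⟩)
    (by
      intro s t hs ht
      have h1 := hb' s t
      have hs1 : (π.comp φ) s = 1 := (hπ1 _).2 hs
      have ht1 : (π.comp φ) t = 1 := (hπ1 _).2 ht
      rw [hs1, ht1, ← ha₀] at h1
      show b (s * t) - a₀ = A.ρ s (b t - a₀) + (b s - a₀)
      rw [map_sub, ha₀fix s hs]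
      have e : b (s * t) - a₀ - (A.ρ s (b t) - a₀ + (b s - a₀)) =
          a₀ - (A.ρ s (b t) - b (s * t) + b s) := by abel
      rw [← sub_eq_zero, e, ← h1, sub_self])
  have hfB : f ∈ coboundaries₂ (Rep.coind (π.comp φ) A) :=
    ShapiroInfl.mem_coboundaries₂_of_loc f hfz b hb' y₀
      (fun s hs => hy₀ s ((hπ1 _).1 hs))
  obtain ⟨x, rfl⟩ := hfB
  rw [hf, ← hdesc.d₁₂_pull₁]
  exact (𝒰.mem_B₂_iff _ _).2 ⟨_, isConst₁_pull₁ hW hker.ge x, rfl⟩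

/-! ### the localisation map on `H²` -/

section Map

variable (𝒰 𝒱 φ A)

/-- evaluation at `1` as an equivariant map `Res_φ J → A` -/
theorem isEquivariant_ev :
    LevelStr.IsEquivariant (A := Rep.res φ (J 𝒰 φ A)) (B := A) (ev 𝒰 φ A) :=
  fun τ x => ev_ρ 𝒰 φ A τ x

/-- **the localisation** `H²(𝒰; J) → H²(𝒱; A)`: restriction along `φ`, then evaluation at `1` -/
noncomputable def loc₂ (hφ : LevelStr.IsContinuous 𝒱 𝒰 φ) : 𝒰.H2 (J 𝒰 φ A) →ₗ[k] 𝒱.H2 A :=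
  (𝒱.H2map (A := Rep.res φ (J 𝒰 φ A)) (B := A) (ev 𝒰 φ A) (isEquivariant_ev 𝒰 φ A)) ∘ₗ
    hφ.res₂ (J 𝒰 φ A)

theorem loc₂_H2π (hφ : LevelStr.IsContinuous 𝒱 𝒰 φ) (c : ↥(𝒰.Z₂ (J 𝒰 φ A))) :
    ∃ hz : locFun 𝒰 φ A (c : Γ × Γ → J 𝒰 φ A) ∈ 𝒱.Z₂ A,
      loc₂ 𝒰 𝒱 φ A hφ (𝒰.H2π _ c) = 𝒱.H2π A ⟨_, hz⟩ :=
  ⟨(𝒱.Z₂map (A := Rep.res φ (J 𝒰 φ A)) (B := A) (ev 𝒰 φ A) (isEquivariant_ev 𝒰 φ A)
    (hφ.resZ₂ (J 𝒰 φ A) c)).2, rfl⟩

/-- the localisation of a level cocycle is a level cocycle -/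
theorem locFun_mem_Z₂ (hφ : LevelStr.IsContinuous 𝒱 𝒰 φ) {c : Γ × Γ → J 𝒰 φ A}
    (hc : c ∈ 𝒰.Z₂ (J 𝒰 φ A)) :
    locFun 𝒰 φ A c ∈ 𝒱.Z₂ A :=
  (loc₂_H2π 𝒰 𝒱 φ A hφ ⟨c, hc⟩).1

variable {𝒰 𝒱 φ A}

/-- **(H2)**: the localisation `H²(𝒰; J) → H²(𝒱; A)` is injective under level Hilbert 90. -/
theorem loc₂_injective (hφ : LevelStr.IsContinuous 𝒱 𝒰 φ) (hH90 : LevelH90 𝒰 𝒱 φ A) :
    Function.Injective (loc₂ 𝒰 𝒱 φ A hφ) := by
  rw [injective_iff_map_eq_zero]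
  intro x hx
  obtain ⟨c, rfl⟩ := Submodule.Quotient.mk_surjective _ x
  obtain ⟨hz, h⟩ := loc₂_H2π 𝒰 𝒱 φ A hφ c
  have h0 : 𝒱.H2π A ⟨_, hz⟩ = 0 := by rw [← h]; exact hx
  rw [LevelStr.H2π_eq_zero_iff] at h0
  have := mem_B₂_of_locFun hH90 c.2 h0
  exact (𝒰.H2π_eq_zero_iff _ c).2 this

end Map

end Fermat.Agent.S55.JSH2_64.Limit
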