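/-
S55 / 52-JS-LIMIT, (H2) file (helper64), part E: the abstract limit theorem over an OPEN SUBGROUP.

`(Γ, 𝒰)`, `(H, 𝒱)` groups with level structures, `φ : H →* Γ`, `A : Rep k H`,
`J = smooth 𝒰 (Rep.coind φ A)` and `V ≤ Γ` an open subgroup.  For `x : Γ` the `x`-localisation of a
`2`-cochain `c` of `V` with values in `J` is the `2`-cochain
`(t₁, t₂) ↦ (c (x⁻¹ φ(t₁) x, x⁻¹ φ(t₂) x)) x` of `H_x = {t | x⁻¹ φ(t) x ∈ V}` (helper73's
`Mackey.twSub`, `Mackey.twHom`) with values in `A`.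

**Theorem** (`mem_B₂_of_locFunAt`): if `R` is a system of representatives of `φ(H) \ Γ / V` and the
level Hilbert 90 holds for every component, then a level `2`-cocycle of `Res_V J` all of whose
`x`-localisations (`x ∈ R`) are level coboundaries is a level coboundary:
`H²(V; J) → ∏_{x ∈ R} H²(H_x; A)` is injective.
-/
import Fermat.Agent.S55.JSH2_64.Limit
import Fermat.Agent.S55.Idele73.Mackey
import Fermat.Agent.S55.CD3.Restrict

set_option autoImplicit false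
set_option linter.style.haveILetI false

open CategoryTheory groupCohomology

namespace Fermat.Agent.S55.JSH2_64.OpenSub

open Fermat.Agent.S55.Profin15 Fermat.Agent.S55.CS79.Smooth Fermat.Agent.S55.CD3
  Fermat.Agent.S55.Idele73

variable {k : Type} [CommRing k] {Γ H : Type} [Group Γ] [Group H]

/-! ### representatives of double cosets for a subgroup of finite index -/

/-- systems of representatives of `φ(H) \ Γ / V` exist when `V` has finite index -/
theorem exists_isRepr_of_finiteIndex (φ : H →* Γ) (V : Subgroup Γ) [V.FiniteIndex] :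
    ∃ R : Finset Γ, Mackey.IsRepr φ V R := by
  classical
  let s : Setoid Γ := ⟨fun x y => Mackey.InDC φ V x y, ⟨fun x => Mackey.inDC_refl φ V x,
    fun h => Mackey.inDC_comm φ V _ h, fun h h' => Mackey.inDC_trans φ V _ h h'⟩⟩
  haveI : Finite (Γ ⧸ V) := Subgroup.finite_quotient_of_finiteIndex
  let f : Γ ⧸ V → Quotient s := Quotient.lift (fun g => Quotient.mk s g) (by
    intro a b hab
    have hab' : a⁻¹ * b ∈ V := QuotientGroup.leftRel_apply.1 hab
    refine Quotient.sound (s := s) ⟨1, ⟨a⁻¹ * b, hab'⟩, ?_⟩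
    rw [map_one, one_mul, mul_inv_cancel_left])
  have hf : Function.Surjective f := by
    intro c
    induction c using Quotient.inductionOn with
    | h g => exact ⟨QuotientGroup.mk g, rfl⟩
  haveI : Finite (Quotient s) := Finite.of_surjective f hf
  haveI := Fintype.ofFinite (Quotient s)
  refine ⟨Finset.univ.image (fun c : Quotient s => c.out), ?_, ?_⟩
  · intro g
    refine ⟨(Quotient.mk s g).out, by simp, ?_⟩
    exact Quotient.exact (Quotient.out_eq (Quotient.mk s g))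
  · intro x hx y hy hxy
    obtain ⟨c, _, rfl⟩ := Finset.mem_image.1 hx
    obtain ⟨c', _, rfl⟩ := Finset.mem_image.1 hy
    have : c = c' := by
      rw [← Quotient.out_eq c, ← Quotient.out_eq c']
      exact Quotient.sound hxy
    rw [this]

/-! ### the components of the restricted smooth coinduced module -/

section Components

variable (𝒰 : LevelStr Γ) (φ : H →* Γ) (A : Rep.{0} k H) (V : Subgroup Γ) (hV : IsOpenSub 𝒰 V)

/-- the restricted smooth coinduced module `Res_V J` -/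
noncomputable abbrev JV : Rep.{0} k V := Rep.res V.subtype (Limit.J 𝒰 φ A)

/-- the `x`-component `J_x = smooth (Coind_{φ_x} A_x)` of `Res_V J` -/
noncomputable abbrev Jx (x : Γ) : Rep.{0} k V :=
  Limit.J (restrictLevels 𝒰 V hV) (Mackey.twHom φ V x) (Rep.res (Mackey.twSub φ V x).subtype A)

/-- the big `x`-component -/
noncomputable abbrev Mx (x : Γ) : Rep.{0} k V := Mackey.comp φ A V x

theorem toComp_ρ (x : Γ) (s : V) (m : Rep.coind φ A) :
    (Mackey.toComp φ A V x).hom ((Rep.coind φ A).ρ (s : Γ) m) =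
      (Mx φ A V x).ρ s ((Mackey.toComp φ A V x).hom m) :=
  Rep.hom_comm_apply (Mackey.toComp φ A V x) s m

theorem fromComp_ρ (x : Γ) (s : V) (m : Mx φ A V x) :
    (Mackey.fromComp φ A V x).hom ((Mx φ A V x).ρ s m) =
      (Rep.coind φ A).ρ (s : Γ) ((Mackey.fromComp φ A V x).hom m) :=
  Rep.hom_comm_apply (Mackey.fromComp φ A V x) s m

/-- projection of `Res_V J` to the `x`-component -/
noncomputable def toCompS (x : Γ) : JV 𝒰 φ A V →ₗ[k] Jx 𝒰 φ A V hV x :=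
  LinearMap.codRestrict (smoothSub (restrictLevels 𝒰 V hV) (Mx φ A V x))
    ((Mackey.toComp φ A V x).hom.toLinearMap ∘ₗ smoothIncl 𝒰 (Rep.coind φ A)) (by
      intro F
      obtain ⟨U, hU, hF⟩ := F.2
      obtain ⟨U₀, hU₀, hle₀⟩ := hV
      obtain ⟨W, hW, hle⟩ := 𝒰.directed U hU U₀ hU₀
      refine ⟨W.subgroupOf V, ⟨W, hW, (hle.trans inf_le_right).trans hle₀, rfl⟩, fun s hs => ?_⟩
      have hsU : (s : Γ) ∈ U := hle.trans inf_le_left (Subgroup.mem_subgroupOf.1 hs)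
      show (Mx φ A V x).ρ s ((Mackey.toComp φ A V x).hom F.1) = (Mackey.toComp φ A V x).hom F.1
      rw [← toComp_ρ, hF _ hsU])

theorem toCompS_apply (x : Γ) (F : JV 𝒰 φ A V) :
    smoothIncl (restrictLevels 𝒰 V hV) (Mx φ A V x) (toCompS 𝒰 φ A V hV x F) =
      (Mackey.toComp φ A V x).hom (smoothIncl 𝒰 (Rep.coind φ A) F) := rfl

/-- inclusion of the `x`-component into `Res_V J` (extension by zero) -/
noncomputable def fromCompS (x : Γ) : Jx 𝒰 φ A V hV x →ₗ[k] JV 𝒰 φ A V :=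
  LinearMap.codRestrict (smoothSub 𝒰 (Rep.coind φ A))
    ((Mackey.fromComp φ A V x).hom.toLinearMap ∘ₗ
      smoothIncl (restrictLevels 𝒰 V hV) (Mx φ A V x)) (by
      intro f
      obtain ⟨W', ⟨U, hU, hUV, rfl⟩, hf⟩ := f.2
      refine ⟨U, hU, fun s hs => ?_⟩
      have hs' : (⟨s, hUV hs⟩ : V) ∈ U.subgroupOf V := Subgroup.mem_subgroupOf.2 hs
      show (Rep.coind φ A).ρ s ((Mackey.fromComp φ A V x).hom f.1) =
        (Mackey.fromComp φ A V x).hom f.1
      have := fromComp_ρ φ A V x ⟨s, hUV hs⟩ f.1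
      rw [hf _ hs'] at this
      exact this.symm)

theorem fromCompS_apply (x : Γ) (f : Jx 𝒰 φ A V hV x) :
    smoothIncl 𝒰 (Rep.coind φ A) (fromCompS 𝒰 φ A V hV x f) =
      (Mackey.fromComp φ A V x).hom (smoothIncl (restrictLevels 𝒰 V hV) (Mx φ A V x) f) := rfl

theorem isEquivariant_toCompS (x : Γ) :
    LevelStr.IsEquivariant (A := JV 𝒰 φ A V) (B := Jx 𝒰 φ A V hV x) (toCompS 𝒰 φ A V hV x) := by
  intro s F
  apply smoothIncl_injective
  rw [toCompS_apply, smoothIncl_ρ, toCompS_apply, ← toComp_ρ]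
  rfl

theorem isEquivariant_fromCompS (x : Γ) :
    LevelStr.IsEquivariant (A := Jx 𝒰 φ A V hV x) (B := JV 𝒰 φ A V)
      (fromCompS 𝒰 φ A V hV x) := by
  intro s f
  apply smoothIncl_injective
  rw [fromCompS_apply, smoothIncl_ρ, fromComp_ρ]
  rfl

/-- the components exhaust `Res_V J` -/
theorem sum_fromCompS_toCompS {R : Finset Γ} (hR : Mackey.IsRepr φ V R) (F : JV 𝒰 φ A V) :
    ∑ x ∈ R, fromCompS 𝒰 φ A V hV x (toCompS 𝒰 φ A V hV x F) = F := by
  apply smoothIncl_injective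
  rw [map_sum]
  have h := Mackey.sum_toComp_fromComp φ A V hR
  have h' := congrArg (fun g : Mackey.resCoind φ A V ⟶ Mackey.resCoind φ A V =>
    g.hom (smoothIncl 𝒰 (Rep.coind φ A) F)) h
  simp only [Rep.sum_hom, Representation.IntertwiningMap.sum_apply] at h'
  exact h'

end Components

/-! ### the theorem -/

section Main

variable {𝒰 : LevelStr Γ} (𝒱 : LevelStr H) {φ : H →* Γ} {A : Rep.{0} k H} {V : Subgroup Γ}
  (hV : IsOpenSub 𝒰 V)

/-- the level structure on `H_x` induced from `𝒱` -/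
noncomputable abbrev levelsAt (x : Γ) : LevelStr ↥(Mackey.twSub φ V x) :=
  𝒱.comap (Mackey.twSub φ V x).subtype

/-- the `x`-localisation of a `2`-cochain of `V` with values in `J` -/
noncomputable def locFunAt (x : Γ) (c : V × V → JV 𝒰 φ A V) :
    Mackey.twSub φ V x × Mackey.twSub φ V x → A :=
  fun t => (smoothIncl 𝒰 (Rep.coind φ A)
    (c (Mackey.twHom φ V x t.1, Mackey.twHom φ V x t.2))).1 x

theorem locFunAt_eq (x : Γ) (c : V × V → JV 𝒰 φ A V) :
    locFunAt x c =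
      Limit.locFun (restrictLevels 𝒰 V hV) (Mackey.twHom φ V x)
        (Rep.res (Mackey.twSub φ V x).subtype A) (fun v => toCompS 𝒰 φ A V hV x (c v)) := by
  funext t
  rw [Limit.locFun_apply, toCompS_apply, Mackey.toComp_apply]
  show _ = (smoothIncl 𝒰 (Rep.coind φ A) _).1 (x * ((1 : V) : Γ))
  rw [Subgroup.coe_one, mul_one]
  rfl

/-- **(H2) over an open subgroup, abstract limit form.**  A level `2`-cocycle of `Res_V J` all of
whose localisations at a system of representatives `R` of `φ(H) \ Γ / V` are level coboundaries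
is a level coboundary. -/
theorem mem_B₂_of_locFunAt {R : Finset Γ} (hR : Mackey.IsRepr φ V R)
    (hH90 : ∀ x ∈ R, Limit.LevelH90 (restrictLevels 𝒰 V hV) (levelsAt 𝒱 x) (Mackey.twHom φ V x)
      (Rep.res (Mackey.twSub φ V x).subtype A))
    {c : V × V → JV 𝒰 φ A V} (hc : c ∈ (restrictLevels 𝒰 V hV).Z₂ (JV 𝒰 φ A V))
    (hloc : ∀ x ∈ R, locFunAt x c ∈
      (levelsAt 𝒱 x).B₂ (Rep.res (Mackey.twSub φ V x).subtype A)) :
    c ∈ (restrictLevels 𝒰 V hV).B₂ (JV 𝒰 φ A V) := by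
  have hsum : c = ∑ x ∈ R, LevelStr.comp₂ (fromCompS 𝒰 φ A V hV x)
      (LevelStr.comp₂ (toCompS 𝒰 φ A V hV x) c) := by
    funext v
    rw [Finset.sum_apply]
    exact (sum_fromCompS_toCompS 𝒰 φ A V hV hR (c v)).symm
  rw [hsum]
  refine Submodule.sum_mem _ (fun x hx => ?_)
  refine LevelStr.comp₂_mem_B₂ (A := Jx 𝒰 φ A V hV x) (B := JV 𝒰 φ A V) _ _
    (isEquivariant_fromCompS 𝒰 φ A V hV x) ?_
  refine Limit.mem_B₂_of_locFun (hH90 x hx)
    (LevelStr.comp₂_mem_Z₂ (A := JV 𝒰 φ A V) (B := Jx 𝒰 φ A V hV x) _ _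
      (isEquivariant_toCompS 𝒰 φ A V hV x) hc) ?_
  have := hloc x hx
  rw [locFunAt_eq hV] at this
  exact this

/-! ### the localisation maps on `H²` -/

/-- the twisted homomorphisms `φ_x : H_x → V` are level-continuous -/
theorem isContinuous_twHom (hφ : LevelStr.IsContinuous 𝒱 𝒰 φ) (x : Γ) :
    LevelStr.IsContinuous (levelsAt (φ := φ) (V := V) 𝒱 x) (restrictLevels 𝒰 V hV)
      (Mackey.twHom φ V x) := by
  rintro W ⟨U, hU, -, rfl⟩
  obtain ⟨W₀, hW₀, hle⟩ := hφ U hU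
  have hn := 𝒰.normal U hU
  refine ⟨W₀.comap (Mackey.twSub φ V x).subtype, ⟨W₀, hW₀, rfl⟩, fun t ht => ?_⟩
  have h1 : φ (t : H) ∈ U := hle ht
  show ((Mackey.twHom φ V x t : V) : Γ) ∈ U
  rw [Mackey.coe_twHom]
  have := hn.conj_mem _ h1 x⁻¹
  rwa [inv_inv] at this

/-- **the localisation at `x`**: `H²(V; J) → H²(H_x; A)` -/
noncomputable def loc₂At (hφ : LevelStr.IsContinuous 𝒱 𝒰 φ) (x : Γ) :
    (restrictLevels 𝒰 V hV).H2 (JV 𝒰 φ A V) →ₗ[k]
      (levelsAt (φ := φ) (V := V) 𝒱 x).H2 (Rep.res (Mackey.twSub φ V x).subtype A) :=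
  Limit.loc₂ (restrictLevels 𝒰 V hV) (levelsAt 𝒱 x) (Mackey.twHom φ V x)
      (Rep.res (Mackey.twSub φ V x).subtype A) (isContinuous_twHom 𝒱 hV hφ x) ∘ₗ
    (restrictLevels 𝒰 V hV).H2map (A := JV 𝒰 φ A V) (B := Jx 𝒰 φ A V hV x)
      (toCompS 𝒰 φ A V hV x) (isEquivariant_toCompS 𝒰 φ A V hV x)

/-- the localisation of a level cocycle is a level cocycle -/
theorem locFunAt_mem_Z₂ (hφ : LevelStr.IsContinuous 𝒱 𝒰 φ) (x : Γ) {c : V × V → JV 𝒰 φ A V}
    (hc : c ∈ (restrictLevels 𝒰 V hV).Z₂ (JV 𝒰 φ A V)) :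
    locFunAt x c ∈
      (levelsAt (φ := φ) (V := V) 𝒱 x).Z₂ (Rep.res (Mackey.twSub φ V x).subtype A) := by
  rw [locFunAt_eq (𝒰 := 𝒰) (φ := φ) (A := A) hV x c]
  exact Limit.locFun_mem_Z₂ _ _ _ _ (isContinuous_twHom 𝒱 hV hφ x)
    (LevelStr.comp₂_mem_Z₂ (A := JV 𝒰 φ A V) (B := Jx 𝒰 φ A V hV x) _ _
      (isEquivariant_toCompS 𝒰 φ A V hV x) hc)

theorem loc₂At_H2π (hφ : LevelStr.IsContinuous 𝒱 𝒰 φ) (x : Γ)
    (c : ↥((restrictLevels 𝒰 V hV).Z₂ (JV 𝒰 φ A V))) :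
    loc₂At 𝒱 hV hφ x ((restrictLevels 𝒰 V hV).H2π _ c) =
      (levelsAt (φ := φ) (V := V) 𝒱 x).H2π (Rep.res (Mackey.twSub φ V x).subtype A)
        ⟨locFunAt x (c : V × V → JV 𝒰 φ A V), locFunAt_mem_Z₂ 𝒱 hV hφ x c.2⟩ := by
  obtain ⟨hz, h⟩ := Limit.loc₂_H2π (restrictLevels 𝒰 V hV) (levelsAt 𝒱 x) (Mackey.twHom φ V x)
    (Rep.res (Mackey.twSub φ V x).subtype A) (isContinuous_twHom 𝒱 hV hφ x)
    ((restrictLevels 𝒰 V hV).Z₂map (A := JV 𝒰 φ A V) (B := Jx 𝒰 φ A V hV x)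
      (toCompS 𝒰 φ A V hV x) (isEquivariant_toCompS 𝒰 φ A V hV x) c)
  have e1 : loc₂At 𝒱 hV hφ x ((restrictLevels 𝒰 V hV).H2π _ c) =
      Limit.loc₂ (restrictLevels 𝒰 V hV) (levelsAt 𝒱 x) (Mackey.twHom φ V x)
        (Rep.res (Mackey.twSub φ V x).subtype A) (isContinuous_twHom 𝒱 hV hφ x)
        ((restrictLevels 𝒰 V hV).H2π _
          ((restrictLevels 𝒰 V hV).Z₂map (A := JV 𝒰 φ A V) (B := Jx 𝒰 φ A V hV x)
            (toCompS 𝒰 φ A V hV x) (isEquivariant_toCompS 𝒰 φ A V hV x) c)) := rfl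
  rw [e1, h]
  congr 1
  exact Subtype.ext (locFunAt_eq (𝒰 := 𝒰) (φ := φ) (A := A) hV x c).symm

/-- **(H2) over an open subgroup**: the localisations `H²(V; J) → H²(H_x; A)`, `x ∈ R`, are
jointly injective. -/
theorem loc₂At_jointly_injective (hφ : LevelStr.IsContinuous 𝒱 𝒰 φ) {R : Finset Γ}
    (hR : Mackey.IsRepr φ V R)
    (hH90 : ∀ x ∈ R, Limit.LevelH90 (restrictLevels 𝒰 V hV) (levelsAt 𝒱 x) (Mackey.twHom φ V x)
      (Rep.res (Mackey.twSub φ V x).subtype A))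
    (y : (restrictLevels 𝒰 V hV).H2 (JV 𝒰 φ A V)) (hy : ∀ x ∈ R, loc₂At 𝒱 hV hφ x y = 0) :
    y = 0 := by
  obtain ⟨c, rfl⟩ := Submodule.Quotient.mk_surjective _ y
  refine ((restrictLevels 𝒰 V hV).H2π_eq_zero_iff _ c).2
    (mem_B₂_of_locFunAt 𝒱 hV hR hH90 c.2 (fun x hx => ?_))
  have h0 : loc₂At 𝒱 hV hφ x ((restrictLevels 𝒰 V hV).H2π _ c) = 0 := hy x hx
  rw [loc₂At_H2π 𝒱 hV hφ x c] at h0
  exact (LevelStr.H2π_eq_zero_iff _ _ _).1 h0

end Main

end Fermat.Agent.S55.JSH2_64.OpenSub
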