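/-
S55 / 52-JS-LIMIT, (H2) file (helper64), part E (instance): **(H2) for
`J_{S,q} = CS79.Limit.JS S q (localUnits q)` over an OPEN SUBGROUP `V ≤ G_ℚ`** (for the
`S`-levels): the localisations of `H²(V, J_{S,q})` at the places `w | q` of the fixed field of `V`
(`= ` double cosets `x ∈ D_q \ G_ℚ / V`; local group `G_w = {t ∈ G_q | x⁻¹ r(t) x ∈ V}`,
restriction along `t ↦ x⁻¹ r(t) x`, then evaluation at `x`) are jointly injective.
-/
import Fermat.Agent.S55.JSH2_64.OpenSub
import Fermat.Agent.S55.JSH2_64.Main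

set_option autoImplicit false
set_option linter.style.haveILetI false

open CategoryTheory groupCohomology

namespace Fermat.Agent.S55.JSH2_64.MainOpen

open Fermat.Agent.S55.Profin15 Fermat.Agent.S55.Idele73.Basic Fermat.Agent.S55.CS79.Limit
  Fermat.Agent.S55.CS79.Smooth Fermat.Agent.S55.CD3 Fermat.Agent.S55.Idele73
  Fermat.Agent.S55.JSH2_64.OpenSub

variable (S : Finset Nat.Primes) (q : ℕ) [Fact q.Prime]
  (V : Subgroup GQ) (hV : IsOpenSub (globalLevels S) V)

/-- the decomposition group `G_w ≤ G_q` of the place of the fixed field of `V` attached to the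
double coset of `x` -/
noncomputable abbrev Gw (x : GQ) : Subgroup (Gq q) := Mackey.twSub (localGaloisToGlobal q) V x

/-- `G_w → V`, `t ↦ x⁻¹ r(t) x` -/
noncomputable abbrev locHomAt (x : GQ) : Gw q V x →* V := Mackey.twHom (localGaloisToGlobal q) V x

/-- the level structure on `G_w` induced from the local levels of `G_q` -/
noncomputable abbrev levelsW (x : GQ) : LevelStr ↥(Gw q V x) :=
  (pullLevels (localGaloisToGlobal q)).comap (Gw q V x).subtype

/-- `ℚ̄_qˣ` as a `G_w`-module -/
noncomputable abbrev unitsW (x : GQ) : Rep.{0} ℤ ↥(Gw q V x) :=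
  Rep.res (Gw q V x).subtype (localUnits q)

/-- **level Hilbert 90 for the components over an open subgroup** -/
theorem levelH90_at (x : GQ) :
    Limit.LevelH90 (restrictLevels (globalLevels S) V hV) (levelsW q V x) (locHomAt q V x)
      (unitsW q V x) := by
  intro U' _ z hz hcoc
  rw [LevelStr.isConst₁_comap_iff] at hz
  obtain ⟨U₀, hU₀, hconst⟩ := hz
  obtain ⟨U₁, ⟨_, F, hF, rfl⟩, rfl⟩ := hU₀
  haveI := hF
  obtain ⟨y₀, hy₀⟩ := LocalH90.localH90 q (Gw q V x).subtype (U'.comap (locHomAt q V x)) z F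
    (fun g s hs => hconst g s hs) (fun s t hs ht => hcoc s t hs ht)
  exact ⟨y₀, fun s hs => hy₀ s hs⟩

/-- the restricted module `Res_V J_{S,q}` -/
noncomputable abbrev JSV : Rep.{0} ℤ V := Rep.res V.subtype (JS S q (localUnits q))

/-- the localisation at `x` of a `2`-cochain of `V` with values in `J_{S,q}`:
`(t₁, t₂) ↦ (c (x⁻¹ r(t₁) x, x⁻¹ r(t₂) x)) x` -/
noncomputable abbrev JSlocFunAt (x : GQ) (c : V × V → JSV S q V) :
    Gw q V x × Gw q V x → localUnits q :=
  locFunAt (𝒰 := globalLevels S) (φ := localGaloisToGlobal q) (A := localUnits q) x c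

theorem JSlocFunAt_apply (x : GQ) (c : V × V → JSV S q V) (t : Gw q V x × Gw q V x) :
    JSlocFunAt S q V x c t =
      (smoothIncl (globalLevels S) (Jbig q (localUnits q))
        (c (locHomAt q V x t.1, locHomAt q V x t.2))).1 x := rfl

/-- **(H2), cocycle form, over an open subgroup `V`.** -/
theorem JS_mem_B₂_of_locFunAt {R : Finset GQ} (hR : Mackey.IsRepr (localGaloisToGlobal q) V R)
    {c : V × V → JSV S q V} (hc : c ∈ (restrictLevels (globalLevels S) V hV).Z₂ (JSV S q V))
    (hloc : ∀ x ∈ R, JSlocFunAt S q V x c ∈ (levelsW q V x).B₂ (unitsW q V x)) :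
    c ∈ (restrictLevels (globalLevels S) V hV).B₂ (JSV S q V) :=
  mem_B₂_of_locFunAt (pullLevels (localGaloisToGlobal q)) hV hR
    (fun x _ => levelH90_at S q V hV x) hc hloc

/-- **the localisation map at `x`** `H²(V, J_{S,q}) → H²(G_w, ℚ̄_qˣ)` -/
noncomputable def JSloc₂At (x : GQ) :
    (restrictLevels (globalLevels S) V hV).H2 (JSV S q V) →ₗ[ℤ]
      (levelsW q V x).H2 (unitsW q V x) :=
  loc₂At (pullLevels (localGaloisToGlobal q)) hV
    (isContinuous_pullLevels S (localGaloisToGlobal q)) x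

theorem JSlocFunAt_mem_Z₂ (x : GQ) {c : V × V → JSV S q V}
    (hc : c ∈ (restrictLevels (globalLevels S) V hV).Z₂ (JSV S q V)) :
    JSlocFunAt S q V x c ∈ (levelsW q V x).Z₂ (unitsW q V x) :=
  locFunAt_mem_Z₂ (pullLevels (localGaloisToGlobal q)) hV
    (isContinuous_pullLevels S (localGaloisToGlobal q)) x hc

theorem JSloc₂At_H2π (x : GQ) (c : ↥((restrictLevels (globalLevels S) V hV).Z₂ (JSV S q V))) :
    JSloc₂At S q V hV x ((restrictLevels (globalLevels S) V hV).H2π _ c) =
      (levelsW q V x).H2π (unitsW q V x)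
        ⟨JSlocFunAt S q V x c, JSlocFunAt_mem_Z₂ S q V hV x c.2⟩ :=
  loc₂At_H2π (pullLevels (localGaloisToGlobal q)) hV
    (isContinuous_pullLevels S (localGaloisToGlobal q)) x c

/-- **(H2) over an open subgroup `V`**: the localisations at a system of representatives of
`D_q \ G_ℚ / V` are jointly injective on `H²(V, J_{S,q})`. -/
theorem JSloc₂At_jointly_injective {R : Finset GQ}
    (hR : Mackey.IsRepr (localGaloisToGlobal q) V R)
    (y : (restrictLevels (globalLevels S) V hV).H2 (JSV S q V))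
    (hy : ∀ x ∈ R, JSloc₂At S q V hV x y = 0) : y = 0 :=
  loc₂At_jointly_injective (pullLevels (localGaloisToGlobal q)) hV
    (isContinuous_pullLevels S (localGaloisToGlobal q)) hR
    (fun x _ => levelH90_at S q V hV x) y hy

/-- systems of representatives of `D_q \ G_ℚ / V` exist -/
theorem exists_isRepr (hV : IsOpenSub (globalLevels S) V) :
    ∃ R : Finset GQ, Mackey.IsRepr (localGaloisToGlobal q) V R := by
  haveI := hV.finiteIndex
  exact exists_isRepr_of_finiteIndex (localGaloisToGlobal q) V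

end Fermat.Agent.S55.JSH2_64.MainOpen
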