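/-
S55 / 52-JS-LIMIT, (H2) file (helper64), part F: THE LOCALISATION MAPS ON INFLATED CLASSES
(the definition-independent half of the binder `hinvJ` of helper99's
`LimDesc99.hasFormationDatum_of_layers / _of_family`).

* `loc₂_datum_infl₂` : for `Limit.loc₂` (`V = Γ`), in helper99's `Datum` vocabulary:
  `loc₂ (d.infl₂ y) = d'.infl₂ (map r ψ 2 y)` for a datum `d` of the limit module `J`, a datum `d'`
  of the local coefficients `A`, `r : Q' →* Q` over `φ` and `ψ : Res_r B ⟶ B'` lifting `ev`;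
* `loc₂_infl₂` : the same in helper49's `layer` vocabulary (`resLayer`, `pushLayer`);
* `evx`, `locw_H2π` : the explicit cocycle formula for helper94's `OpenDatum.locw w`
  (component `w.1`, value at the representative `w.2`, arguments through `twHom`);
* `locw_datum_infl₂` : `locw w (d.infl₂ y) = d'.infl₂ (map r ψ 2 y)` over an open subgroup `V`.
-/
import Fermat.Agent.S55.GlobalMod94.OpenDatum
import Fermat.Agent.S55.LimDesc99.Datum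
import Fermat.Agent.S55.LevelColim49.Nat

set_option autoImplicit false
set_option linter.style.haveILetI false

open CategoryTheory groupCohomology

namespace Fermat.Agent.S55.JSH2_64.InflCompat

open Fermat.Agent.S55.Profin15 Fermat.Agent.S55.Profin15.LevelStr
open Fermat.Agent.S55.CD3 Fermat.Agent.S55.CS79.Smooth Fermat.Agent.S55.Idele73
open Fermat.Agent.S55.JSH2_64 Fermat.Agent.S55.GlobalMod94.Generic
open Fermat.Agent.S55.GlobalMod94.LimitMackey Fermat.Agent.S55.GlobalMod94.OpenDatum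
open Fermat.Agent.S55.LimDesc99 Fermat.Agent.S55.LevelColim49

/-! ### the case `V = Γ` -/

section Single

variable {k Γ H : Type} [CommRing k] [Group Γ] [Group H]
  (𝒰 : LevelStr Γ) (𝒱 : LevelStr H) (φ : H →* Γ) (A : Rep.{0} k H)
  (hφ : LevelStr.IsContinuous 𝒱 𝒰 φ)

/-- **the localisation of a class inflated from a finite-level datum** is the local inflation of
its finite-level localisation -/
theorem loc₂_datum_infl₂ (d : Datum 𝒰 (Limit.J 𝒰 φ A)) (d' : Datum 𝒱 A) (r : d'.Q →* d.Q)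
    (hr : ∀ h : H, r (d'.p h) = d.p (φ h)) (ψ : Rep.res r d.B ⟶ d'.B)
    (hψ : ∀ b : d.B, d'.e (ψ.hom b) = Limit.ev 𝒰 φ A (d.e b)) (y : H2 d.B) :
    Limit.loc₂ 𝒰 𝒱 φ A hφ (d.infl₂ y) = d'.infl₂ ((groupCohomology.map r ψ 2).hom y) := by
  obtain ⟨c, rfl⟩ := ProfinGlobal22.H2π_surjective d.B y
  rw [H2π_comp_map_apply, Datum.infl₂_H2π, Datum.infl₂_H2π]
  show 𝒱.H2map (A := Rep.res φ (Limit.J 𝒰 φ A)) (B := A) (Limit.ev 𝒰 φ A)
    (Limit.isEquivariant_ev 𝒰 φ A) (hφ.res₂ (Limit.J 𝒰 φ A) (𝒰.H2π _ (d.inflZ₂ c))) = _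
  rw [LevelStr.IsContinuous.res₂_H2π, LevelStr.H2map_H2π]
  congr 1
  apply Subtype.ext
  funext ⟨h, h'⟩
  show Limit.ev 𝒰 φ A (d.e (c.1 (d.p (φ h), d.p (φ h')))) =
    d'.e (ψ.hom (c.1 (r (d'.p h), r (d'.p h'))))
  rw [hψ, hr, hr]

/-- evaluation at `1` as a morphism `Res_φ J ⟶ A` -/
noncomputable def evHom : Rep.res φ (Limit.J 𝒰 φ A) ⟶ A :=
  Rep.ofHom ⟨Limit.ev 𝒰 φ A, fun τ => by
    ext x
    exact Limit.ev_ρ 𝒰 φ A τ x⟩

theorem evHom_hom_apply (x : Limit.J 𝒰 φ A) : (evHom 𝒰 φ A).hom x = Limit.ev 𝒰 φ A x := rfl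

/-- **layer form**: the localisation of a class inflated from the layer at `U` -/
theorem loc₂_infl₂ {U : Subgroup Γ} [U.Normal] (hU : U ∈ 𝒰.levels) {N : Subgroup H} [N.Normal]
    (hN : N ∈ 𝒱.levels) (hNU : N ≤ U.comap φ) (x : H2 (layer (Limit.J 𝒰 φ A) U)) :
    Limit.loc₂ 𝒰 𝒱 φ A hφ (infl₂ (Limit.J 𝒰 φ A) 𝒰 hU x) =
      infl₂ A 𝒱 hN ((pushLayer (evHom 𝒰 φ A) N 2).hom
        ((resLayer φ (Limit.J 𝒰 φ A) hNU 2).hom x)) := by
  show 𝒱.H2map (A := Rep.res φ (Limit.J 𝒰 φ A)) (B := A) (Limit.ev 𝒰 φ A)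
    (Limit.isEquivariant_ev 𝒰 φ A) (hφ.res₂ (Limit.J 𝒰 φ A) (infl₂ (Limit.J 𝒰 φ A) 𝒰 hU x)) = _
  rw [res₂_infl₂ φ (Limit.J 𝒰 φ A) hφ hU hN hNU x]
  exact H2map_infl₂ (evHom 𝒰 φ A) 𝒱 hN _

end Single

/-! ### over an open subgroup, for a family -/

section Family

variable {k : Type} [CommRing k] {Γ : Type} [Group Γ] (𝒰 : LevelStr Γ)
  {ι : Type} {H : ι → Type} [∀ i, Group (H i)] (φ : ∀ i, H i →* Γ)
  (A : ∀ i, Rep.{0} k (H i)) (V : Subgroup Γ) (hV : IsOpenSub 𝒰 V)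
  (R : ι → Finset Γ)
  (𝒱 : ∀ (i : ι) (x : Γ), LevelStr (Mackey.twSub (φ i) V x))
  (hcont : ∀ (i : ι) (x : Γ), LevelStr.IsContinuous (𝒱 i x) (restrictLevels 𝒰 V hV)
    (Mackey.twHom (φ i) V x))

/-- evaluation of an element of `Res_V Jtot` at the place `(i, x)`: the value at `x` of its
`i`-th component -/
noncomputable def evx (i : ι) (x : Γ) :
    (Rep.res V.subtype (Jtot 𝒰 φ A)) →ₗ[k] (Ax (φ i) (A i) V x) :=
  (Limit.ev (restrictLevels 𝒰 V hV) (Mackey.twHom (φ i) V x) (Ax (φ i) (A i) V x)) ∘ₗ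
    (prx 𝒰 (φ i) (A i) V hV x) ∘ₗ (pri 𝒰 φ A V i)

theorem evx_apply (i : ι) (x : Γ) (F : Rep.res V.subtype (Jtot 𝒰 φ A)) :
    evx 𝒰 φ A V hV i x F = (smoothIncl 𝒰 (Rep.coind (φ i) (A i)) (F i)).1 x := by
  show (smoothIncl 𝒰 (Rep.coind (φ i) (A i)) (F i)).1 (x * ((1 : ↥V) : Γ)) = _
  rw [Subgroup.coe_one, mul_one]

/-- **the explicit cocycle formula for the localisation at the place `w`** -/
theorem locw_H2π (w : Place R)
    (c : ↥((restrictLevels 𝒰 V hV).Z₂ (Rep.res V.subtype (Jtot 𝒰 φ A)))) :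
    ∃ hz : (fun t : ↥(Mackey.twSub (φ w.1) V (w.2 : Γ)) × ↥(Mackey.twSub (φ w.1) V (w.2 : Γ)) =>
        evx 𝒰 φ A V hV w.1 (w.2 : Γ)
          ((c : ↥V × ↥V → Rep.res V.subtype (Jtot 𝒰 φ A))
            (Mackey.twHom (φ w.1) V (w.2 : Γ) t.1, Mackey.twHom (φ w.1) V (w.2 : Γ) t.2))) ∈
        (𝒱 w.1 (w.2 : Γ)).Z₂ (Ax (φ w.1) (A w.1) V (w.2 : Γ)),
      locw 𝒰 φ A V hV R 𝒱 hcont w ((restrictLevels 𝒰 V hV).H2π _ c) =
        (𝒱 w.1 (w.2 : Γ)).H2π _ ⟨_, hz⟩ := by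
  rw [locw_apply, LevelStr.H2map_H2π, LevelStr.H2map_H2π]
  obtain ⟨hz, h⟩ := Limit.loc₂_H2π (restrictLevels 𝒰 V hV) (𝒱 w.1 (w.2 : Γ))
    (Mackey.twHom (φ w.1) V (w.2 : Γ)) (Ax (φ w.1) (A w.1) V (w.2 : Γ)) (hcont w.1 (w.2 : Γ))
    ((restrictLevels 𝒰 V hV).Z₂map (prx 𝒰 (φ w.1) (A w.1) V hV (w.2 : Γ))
      (prx_equivariant 𝒰 (φ w.1) (A w.1) V hV (w.2 : Γ))
      ((restrictLevels 𝒰 V hV).Z₂map (pri 𝒰 φ A V w.1) (pri_equivariant 𝒰 φ A V w.1) c))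
  exact ⟨hz, h⟩

/-- **the localisation at the place `w` of a class inflated from a finite-level datum** of
`Res_V Jtot` is the local inflation of its finite-level localisation -/
theorem locw_datum_infl₂ (w : Place R)
    (d : Datum (restrictLevels 𝒰 V hV) (Rep.res V.subtype (Jtot 𝒰 φ A)))
    (d' : Datum (𝒱 w.1 (w.2 : Γ)) (Ax (φ w.1) (A w.1) V (w.2 : Γ))) (r : d'.Q →* d.Q)
    (hr : ∀ h : ↥(Mackey.twSub (φ w.1) V (w.2 : Γ)),
      r (d'.p h) = d.p (Mackey.twHom (φ w.1) V (w.2 : Γ) h))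
    (ψ : Rep.res r d.B ⟶ d'.B)
    (hψ : ∀ b : d.B, d'.e (ψ.hom b) = evx 𝒰 φ A V hV w.1 (w.2 : Γ) (d.e b)) (y : H2 d.B) :
    locw 𝒰 φ A V hV R 𝒱 hcont w (d.infl₂ y) =
      d'.infl₂ ((groupCohomology.map r ψ 2).hom y) := by
  obtain ⟨c, rfl⟩ := ProfinGlobal22.H2π_surjective d.B y
  rw [H2π_comp_map_apply, Datum.infl₂_H2π, Datum.infl₂_H2π]
  obtain ⟨hz, h⟩ := locw_H2π 𝒰 φ A V hV R 𝒱 hcont w (d.inflZ₂ c)
  rw [h]
  congr 1
  apply Subtype.ext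
  funext ⟨h, h'⟩
  show evx 𝒰 φ A V hV w.1 (w.2 : Γ)
      (d.e (c.1 (d.p (Mackey.twHom (φ w.1) V (w.2 : Γ) h),
        d.p (Mackey.twHom (φ w.1) V (w.2 : Γ) h')))) =
    d'.e (ψ.hom (c.1 (r (d'.p h), r (d'.p h'))))
  rw [hψ, hr, hr]

end Family

end Fermat.Agent.S55.JSH2_64.InflCompat
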