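/-
S55 / 52-JS-LIMIT, (H2) file (helper64), part G: LIMIT LOCALISATION OF A CLASS INFLATED FROM A
FINITE LEVEL  =  helper37's COINDUCED SUM SYSTEM AT THAT LEVEL (global bookkeeping half of
`hinvM` / `hMJ`, the seam (G3) of slot A3).

Generic setting.  `(Γ, 𝒰)` the global group, `φ : Hq →* Γ` the local group, `A : Rep k Hq`
(`G_ℚ`, `globalLevels S`, `localGaloisToGlobal q`, `localUnits q`); a finite level
`p : Γ →* G` (`resL L`), the finite local level `pD : Hq →* D`, `j : D →* G` with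
`j ∘ pD = p ∘ φ` (`resE q L`, `jE q L`), coefficients `AD : Rep k D`, `e : AD →ₗ A`
(`EUnits q L`, `eLin q L`); an open `V ≤ Γ` with `p.ker ≤ V`, `H = V.map p`.

* `mem_twSub_iff`  : `τ ∈ twSub φ V x ↔ pD τ ∈ twSub j (V.map p) (p x)`;
* `isRepr_image`   : representatives of `φ(Hq) \ Γ / V` map to representatives of
  `j(D) \ G / H`, injectively;
* `evx_eq_loc`     : the cochain identity
  `(value at x of c (x⁻¹ φ(t₁) x, x⁻¹ φ(t₂) x)) = e (CoindSys.loc j AD (p x) f (pD t₁, pD t₂))`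
  for a cochain `c` of `V` whose values are the pull-backs of the values of `f`;
* **`sum_locw_eq_coindS`** : for ANY local invariants `invTot x` on `H²(𝒱_x; A_x)` compatible
  (LOC) with a local system `I : GSys.Sys AD T` on inflated cocycles,
  `∑_{x ∈ R} invTot x (locw (i, x) [c]) = CoindSys.coindS I (V.map p) f`.
-/
import Fermat.Agent.S55.JSH2_64.InflCompat
import Fermat.Agent.S55.CycloRecip37.CoindSys

set_option autoImplicit false
set_option linter.style.haveILetI false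
set_option linter.unusedSectionVars false

open CategoryTheory groupCohomology

namespace Fermat.Agent.S55.JSH2_64.CoindCompat

open Fermat.Agent.S55.Profin15 Fermat.Agent.S55.Profin15.LevelStr
open Fermat.Agent.S55.CD3 Fermat.Agent.S55.CS79.Smooth Fermat.Agent.S55.Idele73
open Fermat.Agent.S55.JSH2_64 Fermat.Agent.S55.GlobalMod94.Generic
open Fermat.Agent.S55.GlobalMod94.LimitMackey Fermat.Agent.S55.GlobalMod94.OpenDatum
open Fermat.Agent.S55.JSH2_64.InflCompat
open Fermat.Agent.S55.CycloRecip37 Fermat.Agent.S55.CycloRecip37.GSys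

/-! ### group theory: local groups and representatives at a finite level -/

section Groups

variable {Γ Hq G D : Type} [Group Γ] [Group Hq] [Group G] [Group D]
  (φ : Hq →* Γ) (p : Γ →* G) (pD : Hq →* D) (j : D →* G)
  (hj : ∀ τ : Hq, j (pD τ) = p (φ τ)) (V : Subgroup Γ) (hkerV : p.ker ≤ V)

include hkerV in
/-- membership in `V` can be tested after `p` -/
theorem mem_map_iff (γ : Γ) : p γ ∈ V.map p ↔ γ ∈ V := by
  constructor
  · rintro ⟨v, hv, hvγ⟩
    have hk : v⁻¹ * γ ∈ p.ker := by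
      rw [MonoidHom.mem_ker, map_mul, map_inv, hvγ, inv_mul_cancel]
    have := V.mul_mem hv (hkerV hk)
    rwa [mul_inv_cancel_left] at this
  · intro hγ
    exact ⟨γ, hγ, rfl⟩

include hj in
theorem p_tw (x : Γ) (τ : Hq) : p (x⁻¹ * φ τ * x) = (p x)⁻¹ * j (pD τ) * p x := by
  rw [map_mul, map_mul, map_inv, hj]

include hj hkerV in
/-- the decomposition group at `x` is the preimage of the finite-level one -/
theorem mem_twSub_iff (x : Γ) (τ : Hq) :
    τ ∈ Mackey.twSub φ V x ↔ pD τ ∈ Mackey.twSub j (V.map p) (p x) := by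
  rw [Mackey.mem_twSub, Mackey.mem_twSub, ← p_tw φ p pD j hj, mem_map_iff p V hkerV]

include hj hkerV in
/-- **representatives of `φ(Hq) \ Γ / V` map to representatives of `j(D) \ G / V.map p`** -/
theorem isRepr_image [DecidableEq G] (hp : Function.Surjective p) (hpD : Function.Surjective pD)
    {R : Finset Γ} (hR : Mackey.IsRepr φ V R) :
    Mackey.IsRepr j (V.map p) (R.image p) ∧ Set.InjOn p (R : Set Γ) := by
  have key : ∀ x y : Γ, Mackey.InDC j (V.map p) (p x) (p y) → Mackey.InDC φ V x y := by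
    rintro x y ⟨d, h, e⟩
    obtain ⟨τ, rfl⟩ := hpD d
    obtain ⟨v, hv, hvh⟩ := h.2
    have e' : p y = p (φ τ * x * v) := by
      rw [e, map_mul, map_mul, hj, hvh]
    have hk : (φ τ * x * v)⁻¹ * y ∈ p.ker := by
      rw [MonoidHom.mem_ker, map_mul, map_inv, ← e', inv_mul_cancel]
    refine ⟨τ, ⟨v * ((φ τ * x * v)⁻¹ * y), V.mul_mem hv (hkerV hk)⟩, ?_⟩
    show y = φ τ * x * (v * ((φ τ * x * v)⁻¹ * y))
    group
  refine ⟨⟨fun g => ?_, ?_⟩, ?_⟩
  · obtain ⟨γ, rfl⟩ := hp g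
    obtain ⟨x, hx, τ, v, e⟩ := hR.1 γ
    refine ⟨p x, Finset.mem_image_of_mem p hx, pD τ, ⟨p v, ⟨v, v.2, rfl⟩⟩, ?_⟩
    show p γ = j (pD τ) * p x * p v
    rw [e, map_mul, map_mul, hj]
  · intro a ha b hb hab
    obtain ⟨x, hx, rfl⟩ := Finset.mem_image.1 ha
    obtain ⟨y, hy, rfl⟩ := Finset.mem_image.1 hb
    rw [hR.2 x hx y hy (key x y hab)]
  · intro x hx y hy hxy
    refine hR.2 x hx y hy (key x y ?_)
    rw [hxy]
    exact Mackey.inDC_refl j (V.map p) (p y)

end Groups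

/-! ### the cochain identity and the sum -/

section Sum

variable {k : Type} [CommRing k] {Γ : Type} [Group Γ] (𝒰 : LevelStr Γ)
  {ι : Type} {H : ι → Type} [∀ i, Group (H i)] (φ : ∀ i, H i →* Γ)
  (A : ∀ i, Rep.{0} k (H i)) (V : Subgroup Γ) (hV : IsOpenSub 𝒰 V)
  (R : ι → Finset Γ)
  (𝒱 : ∀ (i : ι) (x : Γ), LevelStr (Mackey.twSub (φ i) V x))
  (hcont : ∀ (i : ι) (x : Γ), LevelStr.IsContinuous (𝒱 i x) (restrictLevels 𝒰 V hV)
    (Mackey.twHom (φ i) V x))
  (i : ι) {G D : Type} [Group G] [Group D]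
  (p : Γ →* G) (pD : H i →* D) (j : D →* G) (hj : ∀ τ : H i, j (pD τ) = p (φ i τ))
  (AD : Rep.{0} k D) (e : AD →ₗ[k] A i)

include hj in
/-- **the cochain identity**: if the values of the cochain `c` of `V` are the pull-backs (along
`p`, `e`) of the values of the finite-level cochain `f`, then the localisation of `c` at `x` is
the inflation (along `pD`, `e`) of helper37's evaluation cochain `CoindSys.loc j AD (p x) f`. -/
theorem evx_eq_loc (f : G × G → Rep.coind j AD)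
    (c : ↥V × ↥V → Rep.res V.subtype (Jtot 𝒰 φ A))
    (hc : ∀ (v v' : ↥V) (γ : Γ),
      (smoothIncl 𝒰 (Rep.coind (φ i) (A i)) ((c (v, v')) i)).1 γ =
        e ((f (p v, p v')).1 (p γ)))
    (x : Γ) (t : ↥(Mackey.twSub (φ i) V x) × ↥(Mackey.twSub (φ i) V x)) :
    evx 𝒰 φ A V hV i x (c (Mackey.twHom (φ i) V x t.1, Mackey.twHom (φ i) V x t.2)) =
      e (CoindSys.loc j AD (p x) f (pD (t.1 : H i), pD (t.2 : H i))) := by
  rw [evx_apply, hc, CoindSys.loc_apply, Mackey.coe_twHom, Mackey.coe_twHom,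
    p_tw (φ i) p pD j hj, p_tw (φ i) p pD j hj]

variable [Finite G] {T : Type*} [AddCommGroup T] (I : Sys AD T)

include hj in
/-- **the sum of the local invariants of the localisations of an inflated class is the coinduced
sum system at the finite level.** -/
theorem sum_locw_eq_coindS (hp : Function.Surjective p) (hpD : Function.Surjective pD)
    (hkerV : p.ker ≤ V) (hR : Mackey.IsRepr (φ i) V (R i))
    (invTot : ∀ x : ↥(R i), (𝒱 i (x : Γ)).H2 (Ax (φ i) (A i) V (x : Γ)) →+ T)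
    (hLOC : ∀ (x : ↥(R i)) (g : D × D → AD),
      IsCocOn AD (Mackey.twSub j (V.map p) (p (x : Γ))) g →
      ∀ hz : (fun t : ↥(Mackey.twSub (φ i) V (x : Γ)) × ↥(Mackey.twSub (φ i) V (x : Γ)) =>
          e (g (pD (t.1 : H i), pD (t.2 : H i)))) ∈
          (𝒱 i (x : Γ)).Z₂ (Ax (φ i) (A i) V (x : Γ)),
        invTot x ((𝒱 i (x : Γ)).H2π _ ⟨_, hz⟩) =
          I.S (Mackey.twSub j (V.map p) (p (x : Γ))) g)
    (f : G × G → Rep.coind j AD) (hf : IsCocOn (Rep.coind j AD) (V.map p) f)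
    (c : ↥((restrictLevels 𝒰 V hV).Z₂ (Rep.res V.subtype (Jtot 𝒰 φ A))))
    (hc : ∀ (v v' : ↥V) (γ : Γ),
      (smoothIncl 𝒰 (Rep.coind (φ i) (A i))
        (((c : ↥V × ↥V → Rep.res V.subtype (Jtot 𝒰 φ A)) (v, v')) i)).1 γ =
        e ((f (p v, p v')).1 (p γ))) :
    ∑ x : ↥(R i), invTot x (locw 𝒰 φ A V hV R 𝒱 hcont ⟨i, x⟩
        ((restrictLevels 𝒰 V hV).H2π _ c)) =
      CoindSys.coindS I (V.map p) f := by
  classical
  obtain ⟨hRimg, hinj⟩ := isRepr_image (φ i) p pD j hj V hkerV hp hpD hR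
  rw [CoindSys.coindS_eq_sum I hf hRimg, Finset.sum_image hinj,
    ← Finset.sum_coe_sort (R i) (fun x => CoindSys.term I (V.map p) f (p x))]
  refine Finset.sum_congr rfl (fun x _ => ?_)
  obtain ⟨hz, h⟩ := locw_H2π 𝒰 φ A V hV R 𝒱 hcont ⟨i, x⟩ c
  rw [h]
  have hfun : (fun t : ↥(Mackey.twSub (φ i) V (x : Γ)) × ↥(Mackey.twSub (φ i) V (x : Γ)) =>
        evx 𝒰 φ A V hV i (x : Γ)
          ((c : ↥V × ↥V → Rep.res V.subtype (Jtot 𝒰 φ A))
            (Mackey.twHom (φ i) V (x : Γ) t.1, Mackey.twHom (φ i) V (x : Γ) t.2))) =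
      (fun t => e (CoindSys.loc j AD (p (x : Γ)) f (pD (t.1 : H i), pD (t.2 : H i)))) := by
    funext t
    exact evx_eq_loc 𝒰 φ A V hV i p pD j hj AD e f _ hc (x : Γ) t
  have hz' : (fun t : ↥(Mackey.twSub (φ i) V (x : Γ)) × ↥(Mackey.twSub (φ i) V (x : Γ)) =>
      e (CoindSys.loc j AD (p (x : Γ)) f (pD (t.1 : H i), pD (t.2 : H i)))) ∈
      (𝒱 i (x : Γ)).Z₂ (Ax (φ i) (A i) V (x : Γ)) := hfun ▸ hz
  have hcls : (𝒱 i (x : Γ)).H2π (Ax (φ i) (A i) V (x : Γ)) ⟨_, hz⟩ =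
      (𝒱 i (x : Γ)).H2π (Ax (φ i) (A i) V (x : Γ)) ⟨_, hz'⟩ := by
    congr 1
    exact Subtype.ext hfun
  rw [hcls]
  exact hLOC x _ (CoindSys.loc_isCocOn (p (x : Γ)) hf) hz'

end Sum

end Fermat.Agent.S55.JSH2_64.CoindCompat
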