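/-
S55 / 52-JS-LIMIT, (H2) file (helper64), part H: (LOC71) THE LOCAL LINK between the limit local
invariants (helper28's `LocInv28.OpenSub.invW`, unconditional form `P2Local71.invW71`) and the
finite-level local system of invariants (helper93's `locSys`, unconditional form
`P2Local71.locSys71 q L`): the invariant of the class of an INFLATED cocycle

  `t ↦ eLin (g (resE t.1, resE t.2))`,  `g` a cocycle on `D' ≤ Gal(E/ℚ_q)`, `E = Elev q L`,

on the open subgroup `D = resE⁻¹ D'` of `Gal(Ω/ℚ_q)` is `(locSys71 q L).S D' g`.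
This is the hypothesis `hLOC` of `JSH2_64.CoindCompat.sum_locw_eq_coindS`.
-/
import Fermat.Agent.S55.P2Local71.PresFinal
import Fermat.Agent.S55.Idele73.Local

set_option autoImplicit false
set_option linter.unusedSectionVars false
set_option linter.style.haveILetI false

open CategoryTheory groupCohomology IntermediateField

namespace Fermat.Agent.S55.JSH2_64.LocCompat

open Fermat.Agent.S55.Profin15 Fermat.Agent.S55.GlobalInv91 Fermat.Agent.S55.UnrExt93
  Fermat.Agent.S55.LocField17 Fermat.Agent.S55.LocInv28.Abstract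
  Fermat.Agent.S55.LocInv28.Padic Fermat.Agent.S55.LocInv28.Main
  Fermat.Agent.S55.LocInv28.OpenSub Fermat.Agent.S55.KummerBr95
  Fermat.Agent.S55.CycloRecip37.GSys Fermat.Agent.S55.P2Local71

/-! ### generic: `invGen` on a cocycle pulled back from `G_K` -/

section Gen

variable {q : ℕ} [Fact q.Prime]
  {Γ : Type} [Group Γ] (ι : Γ →* (PadicAlgCl q ≃ₐ[ℚ_[q]] PadicAlgCl q))
  (hι : Function.Injective ι) (K : LF q) (hK : ι.range = K.fixingSubgroup)
  [FiniteDimensional ℚ_[q] K] (𝒱 : LevelStr Γ)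
  (h𝒱 : LevelEquiv 𝒱 ((galLevels ℚ_[q] (PadicAlgCl q)).comap ι))

/-- `invGen` on the class of `c ∘ toGK` is `invK` on the class of `c`. -/
theorem invGen_H2π (hP : PresCochain K) (c : ↥((levelsK K).Z₂ (AK K)))
    (hmem : (fun p : Γ × Γ => (c : GK K × GK K → AK K)
      (toGK ι hι K hK p.1, toGK ι hι K hK p.2)) ∈ 𝒱.Z₂ (Rep.res ι (Om q))) :
    invGen ι hι K hK 𝒱 h𝒱 hP (𝒱.H2π (Rep.res ι (Om q)) ⟨_, hmem⟩) =
      invK K hP ((levelsK K).H2π (AK K) c) := by
  show invK K hP ((h2Equiv ι hι K hK 𝒱 h𝒱) _) = _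
  rw [h2Equiv_H2π ι hι K hK 𝒱 h𝒱 c hmem]

end Gen

/-! ### the finite Galois level `E = Elev q L` -/

section Level

open Fermat.Agent.S55.Idele73.Basic Fermat.Agent.S55.Idele73.Local

attribute [local instance] Fermat.Agent.S55.KummerBr95.fact_prime

variable (q : Nat.Primes) (L : IntermediateField ℚ Qbar) [Normal ℚ L] [FiniteDimensional ℚ L]

/-- two finite extensions with the same fixing subgroup are equal -/
theorem eq_of_fixingSubgroup_eq {K K' : LF (q : ℕ)} (h : K.fixingSubgroup = K'.fixingSubgroup) :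
    K = K' := by
  rw [← InfiniteGalois.fixedField_fixingSubgroup K, h,
    InfiniteGalois.fixedField_fixingSubgroup K']

/-- the fixed field of the open subgroup `D = resE⁻¹ D'` is `fixK E D'` -/
theorem fieldOf_eq_fixK (D : Subgroup (LocField17.Gq (q : ℕ)))
    (hD : ∃ W ∈ (galLevels ℚ_[(q : ℕ)] (PadicAlgCl (q : ℕ))).levels, W ≤ D)
    (D' : Subgroup (DE (q : ℕ) L))
    (hDD' : ∀ τ : LocField17.Gq (q : ℕ), τ ∈ D ↔ Idele73.Local.resE (q : ℕ) L τ ∈ D') :
    fieldOf D hD = fixK (Elev (q : ℕ) L) D' := by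
  apply eq_of_fixingSubgroup_eq
  rw [fixingSubgroup_fieldOf]
  ext τ
  rw [hDD', mem_fixingSubgroup_fixK_iff]
  rfl

/-- **(LOC71)**: the limit local invariant of the class of an inflated cocycle is the value of
the finite-level local system. -/
theorem invW71_infl_eq_locSys71 (D : Subgroup (LocField17.Gq (q : ℕ)))
    (hD : ∃ W ∈ (pullLevels (localGaloisToGlobal (q : ℕ))).levels, W ≤ D)
    (D' : Subgroup (DE (q : ℕ) L))
    (hDD' : ∀ τ : LocField17.Gq (q : ℕ), τ ∈ D ↔ Idele73.Local.resE (q : ℕ) L τ ∈ D')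
    (g : DE (q : ℕ) L × DE (q : ℕ) L → EUnits (q : ℕ) L)
    (hg : IsCocOn (EUnits (q : ℕ) L) D' g)
    (hz : (fun t : ↥D × ↥D => eLin (q : ℕ) L
        (g (Idele73.Local.resE (q : ℕ) L (t.1 : LocField17.Gq (q : ℕ)),
          Idele73.Local.resE (q : ℕ) L (t.2 : LocField17.Gq (q : ℕ))))) ∈
      ((pullLevels (localGaloisToGlobal (q : ℕ))).comap D.subtype).Z₂
        (Rep.res D.subtype (Om (q : ℕ)))) :
    invW71 D hD (LevelStr.H2π _ _ ⟨_, hz⟩) = (locSys71 q L).S D' g := by
  rw [locSys71_eq, locSys_S_of_isCocOn q L (localPres q) hg]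
  have key : ∀ (K : LF (q : ℕ)) [FiniteDimensional ℚ_[(q : ℕ)] K]
      (hK : D.subtype.range = K.fixingSubgroup) (hKE : K = fixK (Elev (q : ℕ) L) D'),
      invGen D.subtype D.subtype_injective K hK
          ((pullLevels (localGaloisToGlobal (q : ℕ))).comap D.subtype)
          ((pullLevels_equiv_gal (q := (q : ℕ))).comap D.subtype) (presCochain K)
          (LevelStr.H2π _ _ ⟨_, hz⟩) =
        ((invFamilyOfPres q (localPres q)).isInv (fixK (Elev (q : ℕ) L) D')).inv
          (inflClass (invFamilyOfPres q (localPres q)) (Elev (q : ℕ) L) D' g hg) := by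
    intro K _ hK hKE
    subst hKE
    have hc : UnrExt93.infl₂ (Elev (q : ℕ) L) (fixK (Elev (q : ℕ) L) D') g ∈
        (levelsK (fixK (Elev (q : ℕ) L) D')).Z₂ (AK (fixK (Elev (q : ℕ) L) D')) :=
      infl₂_mem_Z₂ (goodLevels_levelsK _) (resE_mem D') hg
    have hfun : (fun t : ↥D × ↥D => eLin (q : ℕ) L
        (g (Idele73.Local.resE (q : ℕ) L (t.1 : LocField17.Gq (q : ℕ)),
          Idele73.Local.resE (q : ℕ) L (t.2 : LocField17.Gq (q : ℕ))))) =
        (fun p : ↥D × ↥D => UnrExt93.infl₂ (Elev (q : ℕ) L) (fixK (Elev (q : ℕ) L) D') g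
          (toGK D.subtype D.subtype_injective _ hK p.1,
            toGK D.subtype D.subtype_injective _ hK p.2)) := by
      funext t
      rfl
    have hmem := hz
    rw [hfun] at hmem
    have hcls : LevelStr.H2π ((pullLevels (localGaloisToGlobal (q : ℕ))).comap D.subtype)
        (Rep.res D.subtype (Om (q : ℕ))) ⟨_, hz⟩ =
        LevelStr.H2π ((pullLevels (localGaloisToGlobal (q : ℕ))).comap D.subtype)
        (Rep.res D.subtype (Om (q : ℕ))) ⟨_, hmem⟩ := by
      congr 1
    rw [hcls, invGen_H2π D.subtype D.subtype_injective _ hK _ _ (presCochain _) ⟨_, hc⟩ hmem]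
    rfl
  exact key _ _ (fieldOf_eq_fixK q L D _ D' hDD')

end Level

end Fermat.Agent.S55.JSH2_64.LocCompat
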