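/-
S55 / 52-JS-LIMIT, (H2) file (helper64), part C: Hilbert 90 for level cochains of the local
Galois group `Gal(ℚ̄_q/ℚ_q)` with coefficients `ℚ̄_qˣ`.

* `hilbert90_level_gen`: helper20's `ESRep20.hilbert90_level` (direct proof by Dedekind
  independence) for an ARBITRARY Galois extension `Ω/K` and an arbitrary group `Γ → Gal(Ω/K)`.
* `localH90`: the additive (`Rep ℤ`) form for `localUnits q`, for cochains on any group mapping
  to `Gal(ℚ̄_q/ℚ_q)` which are constant modulo the preimage of a finite GLOBAL level.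
* `levelH90_local`: the hypothesis `Limit.LevelH90` of the abstract limit theorem for
  `(globalLevels S, pullLevels r, r = localGaloisToGlobal q, localUnits q)`.
-/
import Fermat.Agent.S55.JSH2_64.Limit
import Fermat.Agent.S55.Idele73.Local
import Fermat.Agent.S55.Profin15.Restriction

set_option autoImplicit false
set_option linter.style.haveILetI false

open CategoryTheory groupCohomology IntermediateField

namespace Fermat.Agent.S55.JSH2_64.LocalH90

open Fermat.Agent.S55.Profin15 Fermat.Agent.S55.Idele73.Basic Fermat.Agent.S55.Idele73.Local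
  Fermat.Agent.S55.ProfinLoc80

/-! ### generic Hilbert 90 for level cochains -/

section Generic

variable {K Ω : Type*} [Field K] [Field Ω] [Algebra K Ω] [IsGalois K Ω]

/-- **Hilbert 90 for level cochains** of an arbitrary Galois extension `Ω/K`: a multiplicative
`1`-cocycle `z : Γ → Ωˣ` (for `r : Γ →* Gal(Ω/K)`) which is constant modulo the preimage of the
fixing subgroup of a finite subextension `F/K` is a coboundary, `z σ = σ b / b`. -/
theorem hilbert90_level_gen {Γ : Type*} [Group Γ] (r : Γ →* (Ω ≃ₐ[K] Ω)) (z : Γ → Ωˣ)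
    (hz : ∀ σ τ : Γ, z (σ * τ) = z σ * Units.map ((r σ : Ω ≃ₐ[K] Ω) : Ω →* Ω) (z τ))
    (F : IntermediateField K Ω) [FiniteDimensional K F]
    (hc : ∀ σ s : Γ, r s ∈ F.fixingSubgroup → z (σ * s) = z σ) :
    ∃ b : Ωˣ, ∀ σ : Γ, z σ = Units.map ((r σ : Ω ≃ₐ[K] Ω) : Ω →* Ω) b / b := by
  classical
  haveI : F.fixingSubgroup.FiniteIndex := fixingSubgroup_finiteIndex F
  set W : Subgroup Γ := F.fixingSubgroup.comap r with hW
  haveI : W.FiniteIndex := ⟨by
    rw [hW, Subgroup.index_comap]
    exact (Subgroup.instFiniteIndex_subgroupOf F.fixingSubgroup r.range).index_ne_zero⟩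
  haveI : Finite (Γ ⧸ W) := Subgroup.finite_quotient_of_finiteIndex
  letI : Fintype (Γ ⧸ W) := Fintype.ofFinite _
  -- the summands
  let φ : F → Γ → Ω := fun c σ => (z σ : Ω) * r σ (c : Ω)
  have hφ : ∀ (c : F) (σ τ : Γ), (σ : Γ ⧸ W) = τ → φ c σ = φ c τ := by
    intro c σ τ h
    have h' : σ⁻¹ * τ ∈ W := QuotientGroup.eq.1 h
    have hs : r (σ⁻¹ * τ) ∈ F.fixingSubgroup := h'
    have e : σ * (σ⁻¹ * τ) = τ := by group
    have h1 : z τ = z σ := by rw [← e]; exact hc σ _ hs
    have h2 : r τ (c : Ω) = r σ (c : Ω) := by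
      rw [← e, map_mul, AlgEquiv.mul_apply]
      congr 1
      exact (IntermediateField.mem_fixingSubgroup_iff _ _).1 hs _ c.2
    show (z σ : Ω) * r σ (c : Ω) = (z τ : Ω) * r τ (c : Ω)
    rw [h1, h2]
  let P : F → Ω := fun c => ∑ q : Γ ⧸ W, φ c (Quotient.out q)
  -- transformation rule
  have hP : ∀ (c : F) (τ : Γ), r τ (P c) = ((z τ : Ω))⁻¹ * P c := by
    intro c τ
    have h1 : ∀ q : Γ ⧸ W, r τ (φ c (Quotient.out q)) =
        ((z τ : Ω))⁻¹ * φ c (Quotient.out (τ • q)) := by
      intro q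
      have hq : ((τ * Quotient.out q : Γ) : Γ ⧸ W) = (Quotient.out (τ • q) : Γ) := by
        rw [QuotientGroup.out_eq']
        conv_rhs => rw [← QuotientGroup.out_eq' q]
        rfl
      rw [← hφ c _ _ hq]
      show r τ ((z (Quotient.out q) : Ω) * r (Quotient.out q) (c : Ω)) =
        ((z τ : Ω))⁻¹ * ((z (τ * Quotient.out q) : Ω) * r (τ * Quotient.out q) (c : Ω))
      rw [hz τ (Quotient.out q), Units.val_mul, map_mul, map_mul, AlgEquiv.mul_apply, ← mul_assoc,
        ← mul_assoc, inv_mul_cancel₀ (Units.ne_zero _), one_mul]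
      rfl
    show r τ (∑ q : Γ ⧸ W, φ c (Quotient.out q)) = _
    rw [map_sum, Finset.sum_congr rfl (fun q _ => h1 q), ← Finset.mul_sum]
    congr 1
    exact Fintype.sum_equiv (MulAction.toPerm τ) _ _ (fun q => rfl)
  -- non-vanishing, by Dedekind
  obtain ⟨c, hcne⟩ : ∃ c : F, P c ≠ 0 := by
    by_contra hcon
    push Not at hcon
    let χ : Γ ⧸ W → (F →* Ω) := fun q =>
      ((r (Quotient.out q) : Ω ≃ₐ[K] Ω) : Ω →* Ω).comp ((algebraMap F Ω : F →+* Ω) : F →* Ω)
    have hχ : Function.Injective χ := by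
      intro q q' h
      rw [← QuotientGroup.out_eq' q, ← QuotientGroup.out_eq' q']
      refine QuotientGroup.eq.2 ?_
      show r ((Quotient.out q)⁻¹ * Quotient.out q') ∈ F.fixingSubgroup
      rw [IntermediateField.mem_fixingSubgroup_iff]
      intro x hx
      have := DFunLike.congr_fun h (⟨x, hx⟩ : F)
      have h' : r (Quotient.out q) x = r (Quotient.out q') x := this
      rw [map_mul, map_inv, AlgEquiv.mul_apply, ← h']
      exact (r (Quotient.out q)).symm_apply_apply x
    have hli : LinearIndependent Ω (fun q : Γ ⧸ W => ((χ q : F →* Ω) : F → Ω)) :=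
      (linearIndependent_monoidHom F Ω).comp χ hχ
    have h0 := Fintype.linearIndependent_iff.1 hli (fun q => (z (Quotient.out q) : Ω)) (by
      funext c
      simp only [Finset.sum_apply, Pi.smul_apply, smul_eq_mul, Pi.zero_apply]
      exact hcon c)
    exact Units.ne_zero _ (h0 ((1 : Γ) : Γ ⧸ W))
  refine ⟨(Units.mk0 (P c) hcne)⁻¹, fun σ => ?_⟩
  apply Units.ext
  rw [Units.val_div_eq_div_val, Units.coe_map, Units.val_inv_eq_inv_val, Units.val_mk0]
  show (z σ : Ω) = r σ (P c)⁻¹ / (P c)⁻¹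
  rw [map_inv₀, hP c σ, mul_inv, inv_inv, div_eq_mul_inv, inv_inv, mul_assoc,
    inv_mul_cancel₀ hcne, mul_one]

end Generic

/-! ### the local Galois group -/

section Local

variable (q : ℕ) [Fact q.Prime]

/-- the action of `Gal(ℚ̄_q/ℚ_q)` on `localUnits q`, multiplicatively -/
theorem localUnits_ρ_apply (τ : Gq q) (y : localUnits q) :
    (Additive.toMul ((localUnits q).ρ τ y) : (PadicAlgCl q)ˣ) =
      Units.map ((τ : PadicAlgCl q ≃ₐ[ℚ_[q]] PadicAlgCl q) : PadicAlgCl q →* PadicAlgCl q)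
        (Additive.toMul y) := rfl

/-- **Hilbert 90 for level cochains with values in `ℚ̄_qˣ`**, additive form: `Γ'` any group over
`Gal(ℚ̄_q/ℚ_q)`, `N ≤ Γ'` a subgroup, `z : Γ' → ℚ̄_qˣ` constant modulo the preimage of a finite
global level `F` and satisfying the cocycle identity on `N`; then `z` is a coboundary on `N`. -/
theorem localH90 {Γ' : Type} [Group Γ'] (ι : Γ' →* Gq q) (N : Subgroup Γ')
    (z : Γ' → localUnits q) (F : IntermediateField ℚ Qbar) [FiniteDimensional ℚ F]
    (hconst : ∀ g s : Γ', localGaloisToGlobal q (ι s) ∈ F.fixingSubgroup → z (g * s) = z g)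
    (hcoc : ∀ s t : Γ', s ∈ N → t ∈ N → z (s * t) = (localUnits q).ρ (ι s) (z t) + z s) :
    ∃ y₀ : localUnits q, ∀ s ∈ N, (localUnits q).ρ (ι s) y₀ - y₀ = z s := by
  haveI : FiniteDimensional ℚ_[q] (localLevel q F) := finiteDimensional_Elev q F
  obtain ⟨b, hb⟩ := hilbert90_level_gen (K := ℚ_[q]) (Ω := PadicAlgCl q)
    (ι.comp N.subtype) (fun s : N => (Additive.toMul (z (s : Γ')) : (PadicAlgCl q)ˣ))
    (fun σ τ => by
      have h := hcoc σ τ σ.2 τ.2
      have h' := congrArg (fun y : localUnits q => (Additive.toMul y : (PadicAlgCl q)ˣ)) h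
      show (Additive.toMul (z ((σ * τ : N) : Γ')) : (PadicAlgCl q)ˣ) = _
      rw [mul_comm]
      exact h')
    (localLevel q F)
    (fun σ s hs => by
      have hs' : localGaloisToGlobal q (ι (s : Γ')) ∈ F.fixingSubgroup :=
        (mem_fixingSubgroup_localLevel_iff q F _).1 hs
      show (Additive.toMul (z ((σ * s : N) : Γ')) : (PadicAlgCl q)ˣ) = _
      rw [Subgroup.coe_mul, hconst _ _ hs'])
  refine ⟨Additive.ofMul b, fun s hs => ?_⟩
  have h1 := hb ⟨s, hs⟩
  apply Additive.toMul.injective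
  exact h1.symm

/-- **`LevelH90` for the local Galois group**: the Hilbert 90 hypothesis of the abstract limit
theorem `Limit.mem_B₂_of_locFun` for `J_S = smooth (Coind_{G_q}^{G_ℚ} ℚ̄_qˣ)`. -/
theorem levelH90_local (S : Finset Nat.Primes) :
    Limit.LevelH90 (globalLevels S) (pullLevels (localGaloisToGlobal q))
      (localGaloisToGlobal q) (localUnits q) := by
  intro U _ z hz hcoc
  rw [pullLevels, LevelStr.isConst₁_comap_iff] at hz
  obtain ⟨U', ⟨_, F, hF, rfl⟩, hconst⟩ := hz
  haveI := hF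
  obtain ⟨y₀, hy₀⟩ := localH90 q (MonoidHom.id (Gq q)) (U.comap (localGaloisToGlobal q)) z F
    (fun g s hs => hconst g s hs) (fun s t hs ht => hcoc s t hs ht)
  exact ⟨y₀, fun s hs => hy₀ s hs⟩

end Local

end Fermat.Agent.S55.JSH2_64.LocalH90
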