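/-
S55 / 52-JS-LIMIT, (H2) file (helper64), part D: **(H2) for the limit semilocal module
`J_{S,q} = CS79.Limit.JS S q (localUnits q)` over `G_ℚ`**: the localisation
`H²(G_S, J_{S,q}) → H²(Gal(ℚ̄_q/ℚ_q), ℚ̄_qˣ)` to the FULL local group (restriction along
`localGaloisToGlobal q`, then evaluation at `1`) is injective.  Instance of the abstract limit
theorem `Limit.mem_B₂_of_locFun` with the local Hilbert 90 `LocalH90.levelH90_local`.
-/
import Fermat.Agent.S55.JSH2_64.LocalH90
import Fermat.Agent.S55.CS79.Limit

set_option autoImplicit false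

open CategoryTheory groupCohomology

namespace Fermat.Agent.S55.JSH2_64.Main

open Fermat.Agent.S55.Profin15 Fermat.Agent.S55.Idele73.Basic Fermat.Agent.S55.CS79.Limit
  Fermat.Agent.S55.CS79.Smooth

variable (S : Finset Nat.Primes) (q : ℕ) [Fact q.Prime]

/-- the localisation of a `2`-cochain of `J_{S,q}`: `(t₁, t₂) ↦ (c (r t₁, r t₂)) 1`,
`r = localGaloisToGlobal q` -/
noncomputable abbrev JSlocFun (c : GQ × GQ → JS S q (localUnits q)) : Gq q × Gq q → localUnits q :=
  Limit.locFun (globalLevels S) (localGaloisToGlobal q) (localUnits q) c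

theorem JSlocFun_apply (c : GQ × GQ → JS S q (localUnits q)) (t : Gq q × Gq q) :
    JSlocFun S q c t =
      (smoothIncl (globalLevels S) (Jbig q (localUnits q))
        (c (localGaloisToGlobal q t.1, localGaloisToGlobal q t.2))).1 1 := rfl

/-- **(H2), cocycle form, `V = G_ℚ`.**  A level `2`-cocycle of `J_{S,q}` whose localisation at
`q` is a level coboundary of `ℚ̄_qˣ` is a level coboundary. -/
theorem JS_mem_B₂_of_locFun {c : GQ × GQ → JS S q (localUnits q)}
    (hc : c ∈ (globalLevels S).Z₂ (JS S q (localUnits q)))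
    (hloc : JSlocFun S q c ∈ (pullLevels (localGaloisToGlobal q)).B₂ (localUnits q)) :
    c ∈ (globalLevels S).B₂ (JS S q (localUnits q)) :=
  Limit.mem_B₂_of_locFun (LocalH90.levelH90_local q S) hc hloc

/-- the localisation of a level cocycle is a level cocycle -/
theorem JSlocFun_mem_Z₂ {c : GQ × GQ → JS S q (localUnits q)}
    (hc : c ∈ (globalLevels S).Z₂ (JS S q (localUnits q))) :
    JSlocFun S q c ∈ (pullLevels (localGaloisToGlobal q)).Z₂ (localUnits q) :=
  Limit.locFun_mem_Z₂ _ _ _ _ (isContinuous_pullLevels S (localGaloisToGlobal q)) hc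

/-- **the localisation map** `H²(G_S, J_{S,q}) → H²(G_q, ℚ̄_qˣ)` in level cohomology -/
noncomputable def JSloc₂ : (globalLevels S).H2 (JS S q (localUnits q)) →ₗ[ℤ]
    (pullLevels (localGaloisToGlobal q)).H2 (localUnits q) :=
  Limit.loc₂ (globalLevels S) (pullLevels (localGaloisToGlobal q)) (localGaloisToGlobal q)
    (localUnits q) (isContinuous_pullLevels S (localGaloisToGlobal q))

theorem JSloc₂_H2π (c : ↥((globalLevels S).Z₂ (JS S q (localUnits q)))) :
    JSloc₂ S q ((globalLevels S).H2π _ c) =
      (pullLevels (localGaloisToGlobal q)).H2π (localUnits q)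
        ⟨JSlocFun S q c, JSlocFun_mem_Z₂ S q c.2⟩ := rfl

/-- **(H2), `V = G_ℚ`**: the localisation `H²(G_S, J_{S,q}) → H²(G_q, ℚ̄_qˣ)` is injective. -/
theorem JSloc₂_injective : Function.Injective (JSloc₂ S q) :=
  Limit.loc₂_injective (isContinuous_pullLevels S (localGaloisToGlobal q))
    (LocalH90.levelH90_local q S)

/-- the localisation with values in the Prelude's `continuousH2 (localGaloisToGlobal q)` -/
noncomputable def JSlocPrelude : (globalLevels S).H2 (JS S q (localUnits q)) →ₗ[ℤ]
    continuousH2 (localGaloisToGlobal q) (localUnits q) :=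
  (continuousH2Equiv (localGaloisToGlobal q) (localUnits q)).symm.toLinearMap ∘ₗ JSloc₂ S q

theorem JSlocPrelude_injective : Function.Injective (JSlocPrelude S q) :=
  (continuousH2Equiv (localGaloisToGlobal q) (localUnits q)).symm.injective.comp
    (JSloc₂_injective S q)

end Fermat.Agent.S55.JSH2_64.Main
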