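/-
S55 / 52-JS-LIMIT, (H2) file (helper64), part A: **Shapiro + inflation in one explicit homotopy**,
degree `2`, injectivity half.  Mathlib only.

`φ : H →* Q` is an ARBITRARY group homomorphism (not necessarily injective), `A : Rep k H`,
`f` a `2`-cocycle of `Q` with values in `Rep.coind φ A`.  Its *localisation* is the `2`-cocycle
`(t₁, t₂) ↦ (f (φ t₁, φ t₂)).1 1` of `H` with values in `A` (restriction along `φ`, then evaluation
at `1`).  If the localisation is the coboundary of a `1`-cochain `b : H → A` whose restriction to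
`ker φ` is cohomologous to the constant `(f (1, 1)).1 1` (automatic when `φ` is injective; this is
where `H¹(ker φ, A) = 0`, i.e. Hilbert 90, enters), then `f` is a coboundary.

For injective `φ` this is the injectivity half of the explicit Shapiro lemma in degree `2`.
-/
import Mathlib

set_option autoImplicit false

universe u

open CategoryTheory groupCohomology

namespace Fermat.Agent.S55.JSH2_64.ShapiroInfl

variable {k H Q : Type u} [CommRing k] [Group H] [Group Q] (φ : H →* Q) (A : Rep.{u} k H)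

/-! ### coset representatives -/

/-- the orbit relation of `H` acting on `Q` by left multiplication through `φ` -/
def cosetSetoid : Setoid Q where
  r g g' := ∃ τ : H, g' = φ τ * g
  iseqv :=
    ⟨fun g => ⟨1, by rw [map_one, one_mul]⟩,
     fun {g g'} ⟨τ, h⟩ => ⟨τ⁻¹, by rw [h, map_inv, inv_mul_cancel_left]⟩,
     fun {g g' g''} ⟨τ, h⟩ ⟨τ', h'⟩ => ⟨τ' * τ, by rw [h', h, map_mul, mul_assoc]⟩⟩

/-- the chosen representative of the coset `φ(H) g` -/
noncomputable def rep (g : Q) : Q := (Quotient.mk (cosetSetoid φ) g).out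

theorem exists_eq_mul_rep (g : Q) : ∃ τ : H, g = φ τ * rep φ g :=
  Quotient.exact (Quotient.out_eq (Quotient.mk (cosetSetoid φ) g))

theorem rep_mul (τ : H) (g : Q) : rep φ (φ τ * g) = rep φ g := by
  unfold rep
  congr 1
  exact Quotient.sound (s := cosetSetoid φ) ⟨τ⁻¹, by rw [map_inv, inv_mul_cancel_left]⟩

/-- a set-theoretic "retraction" `Q → H`: `g = φ (retr g) * rep g` -/
noncomputable def retr (g : Q) : H := (exists_eq_mul_rep φ g).choose

theorem retr_spec (g : Q) : g = φ (retr φ g) * rep φ g := (exists_eq_mul_rep φ g).choose_spec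

/-- `retr (φ τ * g) ≡ τ * retr g` modulo `ker φ` -/
theorem map_retr_mul (τ : H) (g : Q) : φ (retr φ (φ τ * g)) = φ (τ * retr φ g) := by
  have h1 := retr_spec φ (φ τ * g)
  rw [rep_mul] at h1
  have h2 := retr_spec φ g
  have h3 : φ (retr φ (φ τ * g)) * rep φ g = φ τ * φ (retr φ g) * rep φ g := by
    rw [← h1, mul_assoc, ← h2]
  rw [map_mul]
  exact mul_right_cancel h3

/-- `R = φ ∘ retr` -/
noncomputable def R (g : Q) : Q := φ (retr φ g)

theorem R_mul (τ : H) (g : Q) : R φ (φ τ * g) = φ τ * R φ g := by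
  unfold R
  rw [map_retr_mul, map_mul]

/-! ### homogeneous form of a `2`-cochain with values in the coinduced module -/

variable {φ A}

/-- the homogeneous `A`-valued form of an inhomogeneous `2`-cochain with values in `coind φ A` -/
def hom₃ (f : Q × Q → Rep.coind φ A) (a b c : Q) : A := (f (a⁻¹ * b, b⁻¹ * c)).1 a

theorem coind_ρ_apply (g : Q) (x : Rep.coind φ A) (a : Q) :
    ((Rep.coind φ A).ρ g x).1 a = x.1 (a * g) := rfl

theorem coind_add_apply (x y : Rep.coind φ A) (a : Q) : (x + y).1 a = x.1 a + y.1 a := rfl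

theorem coind_sub_apply (x y : Rep.coind φ A) (a : Q) : (x - y).1 a = x.1 a - y.1 a := rfl

theorem hom₃_mul (f : Q × Q → Rep.coind φ A) (τ : H) (a b c : Q) :
    hom₃ f (φ τ * a) (φ τ * b) (φ τ * c) = A.ρ τ (hom₃ f a b c) := by
  unfold hom₃
  have h1 : (φ τ * a)⁻¹ * (φ τ * b) = a⁻¹ * b := by group
  have h2 : (φ τ * b)⁻¹ * (φ τ * c) = b⁻¹ * c := by group
  rw [h1, h2]
  exact (f (a⁻¹ * b, b⁻¹ * c)).2 τ a

/-- the homogeneous cocycle identity -/
theorem hom₃_cocycle {f : Q × Q → Rep.coind φ A} (hf : f ∈ cocycles₂ (Rep.coind φ A))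
    (a b c e : Q) :
    hom₃ f b c e - hom₃ f a c e + hom₃ f a b e - hom₃ f a b c = 0 := by
  have h := (mem_cocycles₂_iff f).1 hf (a⁻¹ * b) (b⁻¹ * c) (c⁻¹ * e)
  have h' : (f (a⁻¹ * b * (b⁻¹ * c), c⁻¹ * e)).1 a + (f (a⁻¹ * b, b⁻¹ * c)).1 a =
      (f (b⁻¹ * c, c⁻¹ * e)).1 (a * (a⁻¹ * b)) + (f (a⁻¹ * b, b⁻¹ * c * (c⁻¹ * e))).1 a :=
    congrArg (fun x : Rep.coind φ A => x.1 a) h
  have e1 : a⁻¹ * b * (b⁻¹ * c) = a⁻¹ * c := by group
  have e2 : b⁻¹ * c * (c⁻¹ * e) = b⁻¹ * e := by group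
  have e3 : a * (a⁻¹ * b) = b := by group
  rw [e1, e2, e3] at h'
  unfold hom₃
  rw [sub_eq_zero, sub_add_eq_add_sub, sub_eq_iff_eq_add, add_comm ((f (a⁻¹ * b, b⁻¹ * c)).1 a)]
  exact h'.symm

theorem hom₃_eq (f : Q × Q → Rep.coind φ A) (g g₁ g₂ : Q) :
    hom₃ f g (g * g₁) (g * g₁ * g₂) = (f (g₁, g₂)).1 g := by
  unfold hom₃
  have h1 : g⁻¹ * (g * g₁) = g₁ := by group
  have h2 : (g * g₁)⁻¹ * (g * g₁ * g₂) = g₂ := by group
  rw [h1, h2]

theorem hom₃_one (f : Q × Q → Rep.coind φ A) (d₁ d₂ : H) :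
    hom₃ f 1 (φ d₁) (φ (d₁ * d₂)) = (f (φ d₁, φ d₂)).1 1 := by
  unfold hom₃
  have h1 : (1 : Q)⁻¹ * φ d₁ = φ d₁ := by group
  have h2 : (φ d₁)⁻¹ * φ (d₁ * d₂) = φ d₂ := by rw [map_mul]; group
  rw [h1, h2]

/-! ### the main lemma -/

section Main

variable (f : Q × Q → Rep.coind φ A) (b₁ : H → A)

/-- the homogeneous `1`-cochain built from a normalised `1`-cochain of `H` -/
noncomputable def Y (a b : Q) : A := A.ρ (retr φ a) (b₁ ((retr φ a)⁻¹ * retr φ b))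

variable {b₁}

/-- independence of the representatives modulo `ker φ` -/
theorem rho_b₁_congr (hr : ∀ τ s : H, φ s = 1 → b₁ (τ * s) = b₁ τ)
    (hl : ∀ s τ : H, φ s = 1 → b₁ (s * τ) = A.ρ s (b₁ τ)) {α α' β β' : H}
    (hα : φ α = φ α') (hβ : φ β = φ β') :
    A.ρ α (b₁ (α⁻¹ * β)) = A.ρ α' (b₁ (α'⁻¹ * β')) := by
  have hn : φ (α'⁻¹ * α) = 1 := by rw [map_mul, map_inv, hα, inv_mul_cancel]
  have hm : φ (β'⁻¹ * β) = 1 := by rw [map_mul, map_inv, hβ, inv_mul_cancel]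
  have hm' : φ (β⁻¹ * β') = 1 := by rw [map_mul, map_inv, hβ, inv_mul_cancel]
  have hn' : φ (α⁻¹ * α') = 1 := by rw [map_mul, map_inv, hα, inv_mul_cancel]
  have e1 : α'⁻¹ * β' = (α'⁻¹ * α) * ((α⁻¹ * β) * (β⁻¹ * β')) := by group
  rw [e1, hl _ _ hn, hr _ _ hm', ← Module.End.mul_apply, ← map_mul, mul_inv_cancel_left]

theorem Y_mul (hr : ∀ τ s : H, φ s = 1 → b₁ (τ * s) = b₁ τ)
    (hl : ∀ s τ : H, φ s = 1 → b₁ (s * τ) = A.ρ s (b₁ τ)) (τ : H) (a b : Q) :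
    Y (φ := φ) b₁ (φ τ * a) (φ τ * b) = A.ρ τ (Y (φ := φ) b₁ a b) := by
  unfold Y
  rw [rho_b₁_congr hr hl (map_retr_mul φ τ a) (map_retr_mul φ τ b), map_mul,
    Module.End.mul_apply]
  congr 2
  group

/-- the key identity: on representatives the homogeneous cocycle is the coboundary of `Y` -/
theorem hom₃_R (hb₁ : ∀ t₁ t₂ : H, (f (φ t₁, φ t₂)).1 1 = A.ρ t₁ (b₁ t₂) - b₁ (t₁ * t₂) + b₁ t₁)
    (a b c : Q) :
    hom₃ f (R φ a) (R φ b) (R φ c) =
      Y (φ := φ) b₁ b c - Y (φ := φ) b₁ a c + Y (φ := φ) b₁ a b := by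
  unfold R Y
  generalize retr φ a = α
  generalize retr φ b = β
  generalize retr φ c = γ
  have e1 : φ α * 1 = φ α := mul_one _
  have e2 : φ α * φ (α⁻¹ * β) = φ β := by rw [← map_mul, mul_inv_cancel_left]
  have e3 : φ α * φ ((α⁻¹ * β) * (β⁻¹ * γ)) = φ γ := by
    rw [← map_mul]
    congr 1
    group
  have e4 : α⁻¹ * β * (β⁻¹ * γ) = α⁻¹ * γ := by group
  have h1 : hom₃ f (φ α) (φ β) (φ γ) =
      A.ρ α (hom₃ f 1 (φ (α⁻¹ * β)) (φ ((α⁻¹ * β) * (β⁻¹ * γ)))) := by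
    rw [← hom₃_mul, e1, e2, e3]
  rw [h1, hom₃_one, hb₁, map_add, map_sub, ← Module.End.mul_apply, ← map_mul,
    mul_inv_cancel_left, e4]

end Main

/-- **Shapiro + inflation, injectivity in degree `2`.**  A `2`-cocycle `f` of `Q` with values in
`coind φ A` whose localisation `(t₁, t₂) ↦ (f (φ t₁, φ t₂)).1 1` is the coboundary of a `1`-cochain
`b` of `H`, such that `s ↦ b s - (f (1, 1)).1 1` is a `1`-coboundary on `ker φ`, is a coboundary. -/
theorem mem_coboundaries₂_of_loc (f : Q × Q → Rep.coind φ A)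
    (hf : f ∈ cocycles₂ (Rep.coind φ A)) (b : H → A)
    (hb : ∀ t₁ t₂ : H, (f (φ t₁, φ t₂)).1 1 = A.ρ t₁ (b t₂) - b (t₁ * t₂) + b t₁)
    (y₀ : A) (hy₀ : ∀ s : H, φ s = 1 → A.ρ s y₀ - y₀ = b s - (f (1, 1)).1 1) :
    f ∈ coboundaries₂ (Rep.coind φ A) := by
  classical
  set a₀ : A := (f (1, 1)).1 1 with ha₀
  -- the normalised cochain
  set b₁ : H → A := fun τ => b τ - (A.ρ τ y₀ - y₀) with hb₁def
  have hb₁ : ∀ t₁ t₂ : H,
      (f (φ t₁, φ t₂)).1 1 = A.ρ t₁ (b₁ t₂) - b₁ (t₁ * t₂) + b₁ t₁ := by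
    intro t₁ t₂
    rw [hb t₁ t₂]
    simp only [hb₁def, map_sub, map_mul, Module.End.mul_apply]
    abel
  have hone : ∀ s : H, φ s = 1 → b₁ s = a₀ := by
    intro s hs
    simp only [hb₁def]
    rw [hy₀ s hs]
    abel
  -- `f (g, 1)` and `f (1, g)`
  have hf1 : ∀ τ : H, (f (φ τ, 1)).1 1 = A.ρ τ a₀ := by
    intro τ
    have h := cocycles₂_map_one_snd (⟨f, hf⟩ : cocycles₂ (Rep.coind φ A)) (φ τ)
    have h' : f (φ τ, 1) = (Rep.coind φ A).ρ (φ τ) (f (1, 1)) := h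
    rw [h', coind_ρ_apply, one_mul]
    have := (f (1, 1)).2 τ 1
    rw [mul_one] at this
    exact this
  have hf2 : ∀ τ : H, (f (1, φ τ)).1 1 = a₀ := by
    intro τ
    have h := cocycles₂_map_one_fst (⟨f, hf⟩ : cocycles₂ (Rep.coind φ A)) (φ τ)
    have h' : f (1, φ τ) = f (1, 1) := h
    rw [h']
  have hr : ∀ τ s : H, φ s = 1 → b₁ (τ * s) = b₁ τ := by
    intro τ s hs
    have h := hb₁ τ s
    rw [hs, hf1, hone s hs] at h
    have : b₁ (τ * s) - b₁ τ = 0 := by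
      have e : b₁ (τ * s) - b₁ τ = A.ρ τ a₀ - (A.ρ τ a₀ - b₁ (τ * s) + b₁ τ) := by abel
      rw [e, ← h, sub_self]
    exact sub_eq_zero.1 this
  have hl : ∀ s τ : H, φ s = 1 → b₁ (s * τ) = A.ρ s (b₁ τ) := by
    intro s τ hs
    have h := hb₁ s τ
    rw [hs, hf2, hone s hs] at h
    have : b₁ (s * τ) - A.ρ s (b₁ τ) = 0 := by
      have e : b₁ (s * τ) - A.ρ s (b₁ τ) = a₀ - (A.ρ s (b₁ τ) - b₁ (s * τ) + a₀) := by abel
      rw [e, ← h, sub_self]
    exact sub_eq_zero.1 this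
  -- the `1`-cochain with values in `coind φ A`
  let wfun : Q → Q → A := fun g₁ g =>
    Y (φ := φ) b₁ g (g * g₁) - hom₃ f g (R φ g) (R φ (g * g₁)) + hom₃ f g (g * g₁) (R φ (g * g₁))
  have hw : ∀ g₁ : Q, wfun g₁ ∈ Representation.coindV φ A.ρ := by
    intro g₁ τ g
    show wfun g₁ (φ τ * g) = A.ρ τ (wfun g₁ g)
    simp only [wfun]
    rw [mul_assoc, R_mul, R_mul, Y_mul hr hl, hom₃_mul, hom₃_mul, map_add, map_sub]
  let w : Q → Rep.coind φ A := fun g₁ => ⟨wfun g₁, hw g₁⟩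
  refine ⟨w, ?_⟩
  funext ⟨g₁, g₂⟩
  apply Subtype.ext
  funext g
  rw [d₁₂_hom_apply]
  show (((Rep.coind φ A).ρ g₁ (w g₂) - w (g₁ * g₂) + w g₁ : Rep.coind φ A)).1 g = (f (g₁, g₂)).1 g
  rw [coind_add_apply, coind_sub_apply, coind_ρ_apply]
  show wfun g₂ (g * g₁) - wfun (g₁ * g₂) g + wfun g₁ g = (f (g₁, g₂)).1 g
  rw [← hom₃_eq f g g₁ g₂]
  simp only [wfun]
  rw [← mul_assoc g g₁ g₂]
  set a := g
  set b' := g * g₁
  set c := g * g₁ * g₂
  have c1 := hom₃_cocycle hf a b' c (R φ c)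
  have c2 := hom₃_cocycle hf a b' (R φ b') (R φ c)
  have c3 := hom₃_cocycle hf a (R φ a) (R φ b') (R φ c)
  have c4 := hom₃_R f hb₁ a b' c
  rw [← sub_eq_zero]
  have key : Y (φ := φ) b₁ b' c - hom₃ f b' (R φ b') (R φ c) + hom₃ f b' c (R φ c) -
      (Y (φ := φ) b₁ a c - hom₃ f a (R φ a) (R φ c) + hom₃ f a c (R φ c)) +
      (Y (φ := φ) b₁ a b' - hom₃ f a (R φ a) (R φ b') + hom₃ f a b' (R φ b')) -
      hom₃ f a b' c =
      (hom₃ f b' c (R φ c) - hom₃ f a c (R φ c) + hom₃ f a b' (R φ c) - hom₃ f a b' c) -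
      (hom₃ f b' (R φ b') (R φ c) - hom₃ f a (R φ b') (R φ c) + hom₃ f a b' (R φ c) -
        hom₃ f a b' (R φ b')) +
      (hom₃ f (R φ a) (R φ b') (R φ c) - hom₃ f a (R φ b') (R φ c) + hom₃ f a (R φ a) (R φ c) -
        hom₃ f a (R φ a) (R φ b')) -
      (hom₃ f (R φ a) (R φ b') (R φ c) -
        (Y (φ := φ) b₁ b' c - Y (φ := φ) b₁ a c + Y (φ := φ) b₁ a b')) := by
    abel
  rw [key, c1, c2, c3, c4, sub_self, sub_self, add_zero, sub_self]

/-- **Explicit Shapiro, injectivity in degree `2`**, for an injective homomorphism. -/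
theorem shapiro_inj₂ (hφ : Function.Injective φ) (f : Q × Q → Rep.coind φ A)
    (hf : f ∈ cocycles₂ (Rep.coind φ A))
    (h : (fun d : H × H => (f (φ d.1, φ d.2)).1 1) ∈ coboundaries₂ A) :
    f ∈ coboundaries₂ (Rep.coind φ A) := by
  obtain ⟨b, hb⟩ := h
  have hb' : ∀ t₁ t₂ : H, (f (φ t₁, φ t₂)).1 1 = A.ρ t₁ (b t₂) - b (t₁ * t₂) + b t₁ := by
    intro t₁ t₂
    have := congrFun hb (t₁, t₂)
    rw [d₁₂_hom_apply] at this
    exact this.symm
  refine mem_coboundaries₂_of_loc f hf b hb' 0 (fun s hs => ?_)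
  have hs1 : s = 1 := hφ (by rw [hs, map_one])
  subst hs1
  have := hb' 1 1
  rw [map_one, map_one, Module.End.one_apply, mul_one] at this
  rw [map_one, Module.End.one_apply, sub_self, this]
  abel

end Fermat.Agent.S55.JSH2_64.ShapiroInfl
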